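import Mathlib

set_option autoImplicit false

/-!
# S18 / AT / AU : the abstract unramified chart theorem -- definitions

Abstract setting (think `A = R[X]`, `p = C ϖ`, `L = K(t)`, `E / L` finite, `(Ω, O)` an algebraically closed
valued field inducing the Gauss valuation on `L`):

* `A` a noetherian UFD, `p : A` prime with `A / p` a PID, `L = Frac A` of characteristic `0`;
* `E / L` a finite field extension; `C :=` the elements of `E` integral over `A`;
* `Ω` an algebraically closed `L`-algebra with a valuation subring `O` such that `GaussA p O`.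
-/

noncomputable section

namespace Fermat.Agent.S18.AU

/-- `O` induces on `A` the `p`-adic valuation (as far as `≥ 0`, `> 0` are concerned). -/
def GaussA {A Ω : Type} [CommRing A] [Field Ω] [Algebra A Ω] (p : A) (O : ValuationSubring Ω) : Prop :=
  ∀ Q : A, algebraMap A Ω Q ∈ O ∧ (algebraMap A Ω Q ∈ O.nonunits ↔ p ∣ Q)

/-- all conjugates of `y` lie in `O`. -/
def IntO (L : Type) {E Ω : Type} [Field L] [Field E] [Field Ω] [Algebra L E] [Algebra L Ω]
    (O : ValuationSubring Ω) (y : E) : Prop :=
  ∀ φ : E →ₐ[L] Ω, φ y ∈ O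

/-- distinct embeddings have distinct reductions. -/
def DRed (L E : Type) {Ω : Type} [Field L] [Field E] [Field Ω] [Algebra L E] [Algebra L Ω]
    (O : ValuationSubring Ω) : Prop :=
  ∀ φ φ' : E →ₐ[L] Ω, φ ≠ φ' → ∃ y : E, IntO L O y ∧ φ y - φ' y ∉ O.nonunits

/-- every conjugate of `ε` reduces to `0` or `1`. -/
def IdemL (L : Type) {E Ω : Type} [Field L] [Field E] [Field Ω] [Algebra L E] [Algebra L Ω]
    (O : ValuationSubring Ω) (ε : E) : Prop :=
  ∀ φ : E →ₐ[L] Ω, φ ε ∈ O.nonunits ∨ φ ε - 1 ∈ O.nonunits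

/-- `y` lies in the localisation at `(p)` of the integral closure of `A` in `E`. -/
def LocInt {A E : Type} [CommRing A] [Field E] [Algebra A E] (p : A) (y : E) : Prop :=
  ∃ s : A, ¬ p ∣ s ∧ IsIntegral A (s • y)

/-- `b` is an `L`-basis of `E` consisting of integral elements, and `r ≡ 1 mod p` multiplies the integral
closure of `A` into `⊕ A b i`. -/
def IsLattice {A L E ι : Type} [CommRing A] [Field L] [Field E] [Algebra A L] [Algebra L E]
    [Algebra A E] [Fintype ι] (p : A) (b : Module.Basis ι L E) (r : A) : Prop :=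
  (∀ i, IsIntegral A (b i)) ∧ p ∣ r - 1 ∧
    ∀ y : E, IsIntegral A y → ∃ a : ι → A, r • y = ∑ i, a i • b i

/-- `E / L` is "unramified at the prime `m` of `A`, with residue characteristic `0`":
there are an algebraically closed `L`-algebra `Λ`, a subring `V ⊆ Λ` and a ring hom `res : V → k₀` to a
field of characteristic `0` with kernel `m V`, such that all conjugates in `Λ` of integral elements
of `E` lie in `V`, and `res (Q) = 0 → m ∣ Q` for `Q : A`. -/
def HorAt {A : Type} (L E : Type) [CommRing A] [Field L] [Field E] [Algebra A L] [Algebra L E]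
    [Algebra A E] (m : A) : Prop :=
  ∃ (Λ : Type) (_ : Field Λ) (_ : IsAlgClosed Λ) (_ : Algebra L Λ) (V : Subring Λ)
    (k₀ : Type) (_ : Field k₀) (_ : CharZero k₀) (res : V →+* k₀),
    (∀ (ψ : E →ₐ[L] Λ) (y : E), IsIntegral A y → ψ y ∈ V) ∧
    (∀ v : V, res v = 0 ↔ ∃ v' : V, (v : Λ) = algebraMap L Λ (algebraMap A L m) * v') ∧
    (∀ (Q : A) (hQ : algebraMap L Λ (algebraMap A L Q) ∈ V), res ⟨_, hQ⟩ = 0 → m ∣ Q)

end Fermat.Agent.S18.AU
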