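import Fermat.Agent.S18.AT.AU.Unimod

set_option autoImplicit false
set_option linter.style.haveILetI false
set_option linter.unusedSectionVars false

/-!
# S18 / AT / AU / Det : the lattice basis is unimodular at `O`; its discriminant   (task AU-Det)

`Φ := Algebra.embeddingsMatrixReindex L Ω b e`, `Φ i j = (e j) (b i)`.

SKETCH of `det_lattice`.  Entries of `Φ` are in `O` (`intO_of_isIntegral`), so `det Φ ∈ O`
(`Matrix.det_apply`, sums/products; or map from `Matrix _ _ O`).  Take `y` from `exists_unimodular`.  For each `i`,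
`locInt_of_intO` gives `s_i`, `¬ p ∣ s_i`, `s_i • y i` integral, so `r • s_i • y i = ∑_j a_ij • b j` (`IsLattice`).
`p ∤ r` (since `p ∣ r - 1`, `p` not a unit), so `u_i := ι (r s_i)` is a unit of `O`.  Applying the embedding `a`:
`u_i * a (y i) = ∑_j ι(a_ij) * a (b j)`, i.e. a matrix identity `diag(u) * Y = ι(a) * Φ'` (up to transposes /
reindexing by `e`), so `(∏ u_i) * det Y = det (ι a) * det Φ` (up to sign-free reindexing: use
`Matrix.det_reindex_self`/`det_submatrix_equiv_self`, `det_transpose`).  If `det Φ` were a nonunit, so would be the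
right side (`det (ι a) ∈ O`), but the left side is a product of elements of `O \ nonunits`.
`exists_discr`: `Algebra.discr_isIntegral` + `IsIntegrallyClosed.isIntegral_iff` give `d₀`;
`Algebra.discr_eq_det_embeddingsMatrixReindex_pow_two` gives `ι d₀ = (det Φ)^2 ∉ nonunits`; `GaussA`.
An equivalence `e` exists: `Fintype.equivOfCardEq`, `AlgHom.card L E Ω`, `Module.finrank_eq_card_basis b`.
-/

noncomputable section

namespace Fermat.Agent.S18.AU

variable {A L E Ω : Type} [CommRing A] [IsDomain A] [UniqueFactorizationMonoid A]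
  [Field L] [CharZero L] [Algebra A L] [IsFractionRing A L]
  [Field E] [Algebra L E] [FiniteDimensional L E] [Algebra A E] [IsScalarTower A L E]
  [Field Ω] [IsAlgClosed Ω] [Algebra L Ω] [Algebra A Ω] [IsScalarTower A L Ω]
  {p : A} {O : ValuationSubring Ω} {ι : Type} [Fintype ι] [DecidableEq ι]

theorem det_not_mem_mul {Ω : Type*} [Field Ω] (O : ValuationSubring Ω) {a b : Ω}
    (ha : a ∉ O.nonunits) (hb : b ∉ O.nonunits) : a * b ∉ O.nonunits := by
  rw [ValuationSubring.mem_nonunits_iff, not_lt] at *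
  rw [map_mul]
  exact one_le_mul ha hb

theorem det_not_mem_prod {Ω κ : Type*} [Field Ω] (O : ValuationSubring Ω) (s : Finset κ)
    (f : κ → Ω) (h : ∀ i ∈ s, f i ∉ O.nonunits) : ∏ i ∈ s, f i ∉ O.nonunits := by
  classical
  induction s using Finset.induction_on with
  | empty => simpa using one_notMem_nonunits O
  | insert a s ha ih =>
    rw [Finset.prod_insert ha]
    exact det_not_mem_mul O (h a (Finset.mem_insert_self _ _))
      (ih fun i hi => h i (Finset.mem_insert_of_mem hi))

theorem det_aux_mem {Ω κ : Type*} [Field Ω] [Fintype κ] [DecidableEq κ] (O : ValuationSubring Ω)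
    (M : Matrix κ κ Ω) (h : ∀ i j, M i j ∈ O) : M.det ∈ O ∧ ∀ i j, M.adjugate i j ∈ O := by
  set M₀ : Matrix κ κ O := Matrix.of fun i j => (⟨M i j, h i j⟩ : O) with hM₀
  have hM : M = O.subtype.mapMatrix M₀ := by
    ext i j; rfl
  constructor
  · rw [hM, ← RingHom.map_det]
    exact (M₀.det).2
  · intro i j
    rw [hM, ← RingHom.map_adjugate]
    exact (M₀.adjugate i j).2

theorem det_entry_mem (hG : GaussA p O) {b : Module.Basis ι L E} {r : A} (hb : IsLattice p b r)
    (e : ι ≃ (E →ₐ[L] Ω)) (i j : ι) : Algebra.embeddingsMatrixReindex L Ω b e i j ∈ O :=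
  intO_of_isIntegral hG (hb.1 i) (e j)

theorem det_algebraMap_smul (φ : E →ₐ[L] Ω) (a : A) (y : E) :
    φ (a • y) = algebraMap A Ω a * φ y := by
  rw [← algebraMap_smul L a y, map_smul, Algebra.smul_def, ← IsScalarTower.algebraMap_apply]

theorem det_lattice (hp : Prime p) (hG : GaussA p O) (hD : DRed L E O) {b : Module.Basis ι L E}
    {r : A} (hb : IsLattice p b r) (e : ι ≃ (E →ₐ[L] Ω)) :
    (Algebra.embeddingsMatrixReindex L Ω b e).det ∈ O ∧
      (Algebra.embeddingsMatrixReindex L Ω b e).det ∉ O.nonunits := by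
  classical
  set Φ := Algebra.embeddingsMatrixReindex L Ω b e with hΦ
  have hΦapp : ∀ i j, Φ i j = (e j) (b i) := fun i j => rfl
  have hΦO : ∀ i j, Φ i j ∈ O := det_entry_mem hG hb e
  refine ⟨(det_aux_mem O Φ hΦO).1, ?_⟩
  intro hcon
  obtain ⟨y, hy, hdet⟩ := exists_unimodular (L := L) (E := E) (Ω := Ω) (O := O) hD
  have hpr : ¬ p ∣ r := by
    intro h
    have := (dvd_sub_right h).1 hb.2.1
    exact hp.not_dvd_one this
  choose s hs hsint using fun i : ι => locInt_of_intO hp hG (hy (e i))
  choose a ha using fun i : ι => hb.2.2 _ (hsint i)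
  set Y : Matrix ι ι Ω := Matrix.of fun k i => (e k) (y (e i)) with hY
  set u : ι → Ω := fun i => algebraMap A Ω (r * s i) with hu
  set A' : Matrix ι ι Ω := Matrix.of fun j i => algebraMap A Ω (a i j) with hA'
  have hmat : Y * Matrix.diagonal u = Φ.transpose * A' := by
    ext k i
    rw [Matrix.mul_diagonal, Matrix.mul_apply]
    have h1 := congrArg (e k) (ha i)
    rw [smul_smul, det_algebraMap_smul, map_sum] at h1
    simp only [hY, Matrix.of_apply, hu, hA', Matrix.transpose_apply, hΦapp]
    rw [mul_comm, h1]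
    exact Finset.sum_congr rfl fun j _ => by rw [det_algebraMap_smul, mul_comm]
  have hdetY : Y.det ∉ O.nonunits := by
    have : Y = (Matrix.of fun (a i : E →ₐ[L] Ω) => a (y i)).submatrix e e := by
      ext k i; rfl
    rw [this, Matrix.det_submatrix_equiv_self]
    convert hdet
  have hdets := congrArg Matrix.det hmat
  rw [Matrix.det_mul, Matrix.det_mul, Matrix.det_diagonal, Matrix.det_transpose] at hdets
  have hL : Y.det * ∏ i, u i ∉ O.nonunits := by
    refine det_not_mem_mul O hdetY (det_not_mem_prod O _ _ fun i _ => ?_)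
    rw [hu, (hG _).2]
    exact fun h => (hp.dvd_or_dvd h).elim hpr (hs i)
  apply hL
  rw [hdets]
  exact mul_mem_nonunits' O hcon (det_aux_mem O A' fun j i => (hG _).1).1

theorem det_exists_equiv (b : Module.Basis ι L E) : Nonempty (ι ≃ (E →ₐ[L] Ω)) := by
  classical
  refine ⟨Fintype.equivOfCardEq ?_⟩
  rw [AlgHom.card L E Ω, Module.finrank_eq_card_basis b]

theorem exists_discr (hp : Prime p) (hG : GaussA p O) (hD : DRed L E O) {b : Module.Basis ι L E}
    {r : A} (hb : IsLattice p b r) :
    ∃ d₀ : A, algebraMap A L d₀ = Algebra.discr L b ∧ ¬ p ∣ d₀ := by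
  obtain ⟨e⟩ := det_exists_equiv (Ω := Ω) b
  have hint : IsIntegral A (Algebra.discr L b) := Algebra.discr_isIntegral L hb.1
  obtain ⟨d₀, hd₀⟩ := IsIntegrallyClosed.isIntegral_iff.1 hint
  refine ⟨d₀, hd₀, ?_⟩
  rw [← (hG d₀).2, IsScalarTower.algebraMap_apply A L Ω, hd₀,
    Algebra.discr_eq_det_embeddingsMatrixReindex_pow_two L Ω b e, sq]
  have := (det_lattice hp hG hD hb e).2
  exact det_not_mem_mul O this this

theorem det_repr_eq (hp : Prime p) (hG : GaussA p O) (hD : DRed L E O) {b : Module.Basis ι L E}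
    {r : A} (hb : IsLattice p b r) (e : ι ≃ (E →ₐ[L] Ω)) (y : E) (i : ι) :
    algebraMap L Ω (b.repr y i) = (Algebra.embeddingsMatrixReindex L Ω b e).det⁻¹ *
      ∑ j, (Algebra.embeddingsMatrixReindex L Ω b e).transpose.adjugate i j * (e j) y := by
  classical
  set Φ := Algebra.embeddingsMatrixReindex L Ω b e with hΦ
  have hΦapp : ∀ i j, Φ i j = (e j) (b i) := fun i j => rfl
  have hne : Φ.det ≠ 0 := by
    intro h0
    apply (det_lattice hp hG hD hb e).2
    rw [← hΦ, h0]
    exact zero_mem_nonunits O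
  set c : ι → Ω := fun i => algebraMap L Ω (b.repr y i) with hc
  set w : ι → Ω := fun j => (e j) y with hw
  have h1 : w = Φ.transpose.mulVec c := by
    funext j
    rw [Matrix.mulVec, dotProduct]
    simp only [hw, hc, Matrix.transpose_apply, hΦapp]
    conv_lhs => rw [← b.sum_repr y, map_sum]
    exact Finset.sum_congr rfl fun i _ => by
      rw [map_smul, Algebra.smul_def, mul_comm]
  have h2 : Φ.transpose.adjugate.mulVec w = Φ.det • c := by
    rw [h1, Matrix.mulVec_mulVec, Matrix.adjugate_mul, Matrix.det_transpose, Matrix.smul_mulVec,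
      Matrix.one_mulVec]
  have h3 := congrFun h2 i
  rw [Matrix.mulVec, dotProduct, Pi.smul_apply, smul_eq_mul] at h3
  rw [h3, inv_mul_cancel_left₀ hne]

/-- coordinates in the basis `b` of an element all of whose conjugates are in `O` (resp. nonunits) are in `O`
(resp. nonunits).  (Cramer: `(e j y)_j = Φᵀ *ᵥ (ι (b.repr y i))_i`, multiply by the adjugate, `det Φ` is a unit of `O`.) -/
theorem repr_mem (hp : Prime p) (hG : GaussA p O) (hD : DRed L E O) {b : Module.Basis ι L E}
    {r : A} (hb : IsLattice p b r) {y : E} (hy : IntO L O y) (i : ι) :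
    algebraMap L Ω (b.repr y i) ∈ O := by
  obtain ⟨e⟩ := det_exists_equiv (Ω := Ω) b
  rw [det_repr_eq hp hG hD hb e y i]
  have hd := det_lattice hp hG hD hb e
  refine O.mul_mem _ _ (inv_mem_of_notMem_nonunits O hd.1 hd.2) (sum_mem fun j _ => ?_)
  exact O.mul_mem _ _ ((det_aux_mem O _ fun i j => det_entry_mem hG hb e j i).2 i j) (hy (e j))

theorem repr_mem_nonunits (hp : Prime p) (hG : GaussA p O) (hD : DRed L E O)
    {b : Module.Basis ι L E} {r : A} (hb : IsLattice p b r) {y : E}
    (hy : ∀ φ : E →ₐ[L] Ω, φ y ∈ O.nonunits) (i : ι) :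
    algebraMap L Ω (b.repr y i) ∈ O.nonunits := by
  obtain ⟨e⟩ := det_exists_equiv (Ω := Ω) b
  rw [det_repr_eq hp hG hD hb e y i]
  have hd := det_lattice hp hG hD hb e
  refine mul_mem_nonunits O (inv_mem_of_notMem_nonunits O hd.1 hd.2)
    (sum_mem_nonunits O _ _ fun j _ => ?_)
  exact mul_mem_nonunits O ((det_aux_mem O _ fun i j => det_entry_mem hG hb e j i).2 i j)
    (hy (e j))

end Fermat.Agent.S18.AU
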