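import Mathlib

set_option autoImplicit false

/-!
# S18 / AT / AU / DvdPow   (task AU-DvdPow)

In a UFD: if every prime factor of `d ≠ 0` divides `w`, then `d ∣ w ^ k` for some `k`.
(`UniqueFactorizationMonoid.induction_on_prime`, or `k := card (normalizedFactors d)`:
`d ~ ∏ factors`, each factor divides `w`, `Multiset.prod_dvd_prod...`.)
-/

namespace Fermat.Agent.S18.AU

theorem exists_pow_eq_mul {A : Type*} [CommRing A] [IsDomain A] [UniqueFactorizationMonoid A]
    {d w : A} (hd : d ≠ 0) (h : ∀ m, Prime m → m ∣ d → m ∣ w) : ∃ (k : ℕ) (a : A), w ^ k = a * d := by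
  suffices H : ∀ d : A, d ≠ 0 → (∀ m, Prime m → m ∣ d → m ∣ w) → ∃ k : ℕ, d ∣ w ^ k by
    obtain ⟨k, a, ha⟩ := H d hd h
    exact ⟨k, a, by rw [ha, mul_comm]⟩
  intro d
  induction d using UniqueFactorizationMonoid.induction_on_prime with
  | h₁ => intro h0; exact absurd rfl h0
  | h₂ x hx => intro _ _; exact ⟨0, hx.dvd⟩
  | h₃ a p ha hp ih =>
    intro _ hdiv
    obtain ⟨k, hk⟩ := ih ha (fun m hm hma => hdiv m hm (Dvd.dvd.mul_left hma p))
    refine ⟨k + 1, ?_⟩
    rw [pow_succ, mul_comm p a]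
    exact mul_dvd_mul hk (hdiv p hp (Dvd.intro _ rfl))

end Fermat.Agent.S18.AU
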