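import Fermat.Agent.S18.AT.AU.Integral
import Fermat.Agent.S18.AT.Coprime

set_option autoImplicit false
set_option linter.unusedSectionVars false
set_option linter.style.haveILetI false

/-!
# S18 / AT / AU / Hor : the horizontal lemma   (task AU-Hor)

`m` a prime of `A` at which `E/L` is unramified (`HorAt`), `m ∤ r`  ⟹  `m ∤ d₀ = discr (b)`.

SKETCH.  Unpack `HorAt`: `Λ, V, k₀, res, H1, H2, H3`.  `ι := algebraMap L Λ`.  There is at least one `ψ : E →ₐ[L] Λ`
(`IsAlgClosed.lift`), so `ι (algebraMap A L Q) = ψ (algebraMap A E Q) ∈ V` for all `Q : A` by `H1`.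
(a) `hV : ∀ g : L, ι g ∈ V → ∃ α β, ¬ m ∣ β ∧ g * β = α`: write `g = α / β` with `α, β` not both divisible by `m`
    (`IsFractionRing.exists_reduced_fraction`).  If `m ∣ β`: `res (ι β) = 0` by `H2`, so `res (ι α) = res (ι g) * res (ι β) = 0`,
    so `m ∣ α` by `H3`: contradiction.
(b) Suppose `m ∣ d₀`.  `T := Algebra.traceMatrix L b` has entries `algebraMap A L (T' i j)`, `T' : Matrix ι ι A`
    (traces of integral elements, `A` integrally closed: `Algebra.isIntegral_trace`,
    `IsIntegrallyClosed.isIntegral_iff`), `det T' = d₀`.  Over the domain `A ⧸ span {m}` the matrix `T'` has determinant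
    `0`, so (`Matrix.exists_mulVec_eq_zero_iff`) there is `a : ι → A`, not all `a i` divisible by `m`, with
    `m ∣ ∑_i T' j i * a i` for all `j`.  Put `w := ∑ a i • b i` (integral).  Then `Tr (w * b j) ∈ m A` for all `j`.
(c) for every integral `c : E`: `Tr (w c) ∈ m A` (it lies in `A`; `r • c = ∑ a'_j b_j`, so `r Tr(w c) ∈ m A`; `m ∤ r`, `m` prime).
(d) `ι (Tr (w c)) = ∑_ψ ψ w * ψ c` (`trace_eq_sum_embeddings Λ`).  Apply `res`: `∑_ψ χ_ψ(w) χ_ψ(c) = 0` in `k₀` for all
    `c ∈ C := integralClosure A E`, where `χ_ψ := res ∘ ψ : C →* k₀`.  Group the `ψ` with equal `χ_ψ`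
    (`Finset.sum_fiberwise` / `Finset.sum_comp`): `∑_{χ} (N_χ χ(w)) χ = 0`, `N_χ ≥ 1` the size of the fibre.
    Dedekind (`linearIndependent_monoidHom`) ⟹ `N_χ χ(w) = 0` ⟹ `χ(w) = 0` (`CharZero k₀`).  So `res (ψ w) = 0` for all `ψ`.
(e) by `H2`, `ψ w = ι m * v'`, so `ψ (w / m) ∈ V` for all `ψ`  (`z := (algebraMap A E m)⁻¹ * w`).
    `exists_smul_isIntegral V hm hV z` gives `β`, `¬ m ∣ β`, `β • z` integral; also `m • z = w` integral;
    `isIntegral_of_smul_of_smul` (`IsRelPrime m β`) ⟹ `z` integral.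
(f) `r • z = ∑ a'_i • b i`, so `r • w = ∑ (m a'_i) • b i`; comparing coordinates (`b` is a basis, `A → L` injective):
    `r a i = m a'_i`, `m ∤ r` ⟹ `m ∣ a i` for all `i`: contradiction with (b).
Feel free to split into several lemmas / ask for a co-worker.
-/

noncomputable section

namespace Fermat.Agent.S18.AU

variable {A L E : Type} [CommRing A] [IsDomain A] [UniqueFactorizationMonoid A]
  [Field L] [CharZero L] [Algebra A L] [IsFractionRing A L]
  [Field E] [Algebra L E] [FiniteDimensional L E] [Algebra A E] [IsScalarTower A L E]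
  {p : A} {ι : Type} [Fintype ι] [DecidableEq ι]

namespace Hor

theorem smul_eq (a : A) (y : E) : a • y = algebraMap A L a • y :=
  (IsScalarTower.algebraMap_smul L a y).symm

/-- traces of integral elements lie in `A`. -/
theorem exists_trace_eq {y : E} (hy : IsIntegral A y) :
    ∃ t : A, algebraMap A L t = Algebra.trace L E y :=
  IsIntegrallyClosed.isIntegral_iff.1 (Algebra.isIntegral_trace (R := A) (L := L) hy)

/-- uniqueness of coordinates with coefficients in `A`. -/
theorem coord_unique (b : Module.Basis ι L E) {c c' : ι → A}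
    (h : ∑ i, c i • b i = ∑ i, c' i • b i) : c = c' := by
  have h' : ∑ i, algebraMap A L (c i) • b i = ∑ i, algebraMap A L (c' i) • b i := by
    simpa only [IsScalarTower.algebraMap_smul] using h
  have h1 := congrArg (fun y => (b.repr y : ι → L)) h'
  simp only [b.repr_sum_self] at h1
  funext i
  exact IsFractionRing.injective A L (congrFun h1 i)

/-- (a) elements of `L` which land in `V` have denominators prime to `m`. -/
theorem exists_frac {Λ : Type} [Field Λ] [Algebra L Λ] (V : Subring Λ) {k₀ : Type} [Field k₀]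
    (res : V →+* k₀) {m : A} (hm : Prime m)
    (hA : ∀ Q : A, algebraMap L Λ (algebraMap A L Q) ∈ V)
    (H2 : ∀ v : V, res v = 0 ↔ ∃ v' : V, (v : Λ) = algebraMap L Λ (algebraMap A L m) * v')
    (H3 : ∀ (Q : A) (hQ : algebraMap L Λ (algebraMap A L Q) ∈ V), res ⟨_, hQ⟩ = 0 → m ∣ Q)
    (g : L) (hg : algebraMap L Λ g ∈ V) :
    ∃ α β : A, ¬ m ∣ β ∧ g * algebraMap A L β = algebraMap A L α := by
  obtain ⟨α, β, hrel, hfrac⟩ := IsFractionRing.exists_reduced_fraction (A := A) (K := L) g
  have hmul : g * algebraMap A L β = algebraMap A L α := by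
    rw [← hfrac, IsLocalization.mk'_spec]
  refine ⟨α, β, ?_, hmul⟩
  intro hdvd
  obtain ⟨β', hβ'⟩ := hdvd
  have h1 : res ⟨_, hA β⟩ = 0 := by
    rw [H2]
    refine ⟨⟨_, hA β'⟩, ?_⟩
    show algebraMap L Λ (algebraMap A L β) = _ * algebraMap L Λ (algebraMap A L β')
    rw [hβ', map_mul, map_mul]
  have h2 : (⟨_, hA α⟩ : V) = ⟨_, hg⟩ * ⟨_, hA β⟩ := by
    apply Subtype.ext
    show algebraMap L Λ (algebraMap A L α) = algebraMap L Λ g * algebraMap L Λ (algebraMap A L β)
    rw [← hmul, map_mul]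
  have h3 : res ⟨_, hA α⟩ = 0 := by
    rw [h2, map_mul, h1, mul_zero]
  have h4 : m ∣ α := H3 α _ h3
  exact hm.not_isUnit (hrel h4 ⟨β', hβ'⟩)

/-- (b) a vector in the kernel of the trace matrix mod `m`. -/
theorem exists_kernel {b : Module.Basis ι L E} (hb : ∀ i, IsIntegral A (b i)) {d₀ : A}
    (hd₀ : algebraMap A L d₀ = Algebra.discr L b) {m : A} (hm : Prime m) (hd : m ∣ d₀) :
    ∃ a : ι → A, (∃ i, ¬ m ∣ a i) ∧
      ∀ j, ∃ t : A, Algebra.trace L E ((∑ i, a i • b i) * b j) = algebraMap A L (m * t) := by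
  choose T' hT' using fun i j => exists_trace_eq (L := L) ((hb i).mul (hb j))
  let T : Matrix ι ι A := Matrix.of T'
  have hdet : T.det = d₀ := by
    apply IsFractionRing.injective A L
    rw [hd₀, RingHom.map_det, Algebra.discr_def]
    congr 1
    ext i j
    simp [T, hT', Algebra.traceMatrix_apply, Algebra.traceForm_apply]
  haveI : (Ideal.span {m}).IsPrime := (Ideal.span_singleton_prime hm.ne_zero).mpr hm
  let q := Ideal.Quotient.mk (Ideal.span {m})
  have hdet0 : (q.mapMatrix T).det = 0 := by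
    rw [← RingHom.map_det, hdet]
    exact Ideal.Quotient.eq_zero_iff_mem.mpr (Ideal.mem_span_singleton.mpr hd)
  obtain ⟨v, hv0, hv⟩ := Matrix.exists_vecMul_eq_zero_iff.mpr hdet0
  choose a ha using fun i => Ideal.Quotient.mk_surjective (v i)
  refine ⟨a, ?_, ?_⟩
  · by_contra hcon
    push Not at hcon
    apply hv0
    funext i
    rw [← ha i]
    exact Ideal.Quotient.eq_zero_iff_mem.mpr (Ideal.mem_span_singleton.mpr (hcon i))
  · intro j
    have h1 := congrFun hv j
    have h2 : q (∑ i, a i * T' i j) = 0 := by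
      rw [map_sum]
      rw [Matrix.vecMul, dotProduct] at h1
      simp only [Pi.zero_apply] at h1
      rw [← h1]
      apply Finset.sum_congr rfl
      intro i _
      rw [map_mul, ← ha i]
      rfl
    obtain ⟨t, ht⟩ := Ideal.mem_span_singleton.mp (Ideal.Quotient.eq_zero_iff_mem.mp h2)
    refine ⟨t, ?_⟩
    rw [← ht, map_sum, Finset.sum_mul, map_sum]
    apply Finset.sum_congr rfl
    intro i _
    rw [RingHom.map_mul, hT', smul_eq (L := L), smul_mul_assoc, map_smul, smul_eq_mul]

/-- (c) the trace form with `w` is divisible by `m` on all integral elements. -/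
theorem trace_mul_dvd {b : Module.Basis ι L E} {r : A}
    (hb : ∀ y : E, IsIntegral A y → ∃ a : ι → A, r • y = ∑ i, a i • b i) {m : A} (hm : Prime m)
    (hmr : ¬ m ∣ r) {w : E} (hw : IsIntegral A w)
    (hwb : ∀ j, ∃ t : A, Algebra.trace L E (w * b j) = algebraMap A L (m * t))
    {c : E} (hc : IsIntegral A c) :
    ∃ t : A, Algebra.trace L E (w * c) = algebraMap A L (m * t) := by
  obtain ⟨t, ht⟩ := exists_trace_eq (L := L) (hw.mul hc)
  obtain ⟨a', ha'⟩ := hb c hc
  choose s hs using hwb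
  have h1 : algebraMap A L (r * t) = algebraMap A L (m * ∑ j, a' j * s j) := by
    rw [RingHom.map_mul, ht, ← smul_eq_mul, ← map_smul, ← mul_smul_comm,
      IsScalarTower.algebraMap_smul, ha', Finset.mul_sum, map_sum, Finset.mul_sum, map_sum]
    apply Finset.sum_congr rfl
    intro j _
    rw [smul_eq (L := L), mul_smul_comm, map_smul, hs, smul_eq_mul, ← RingHom.map_mul]
    congr 1
    ring
  have h2 : m ∣ r * t := ⟨_, IsFractionRing.injective A L h1⟩
  obtain ⟨t', rfl⟩ := (hm.dvd_or_dvd h2).resolve_left hmr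
  exact ⟨t', ht.symm⟩

/-- (d) Dedekind independence with multiplicities. -/
theorem dedekind {G k₀ J : Type} [MulOneClass G] [Field k₀] [CharZero k₀] [Fintype J]
    (χ : J → (G →* k₀)) (w : G) (h : ∀ c : G, ∑ j, χ j w * χ j c = 0) (j : J) : χ j w = 0 := by
  classical
  have h1 : ∑ j, (fun f : G →* k₀ => f w • (f : G → k₀)) (χ j) = 0 := by
    funext c
    simpa using h c
  rw [Finset.sum_comp (fun f : G →* k₀ => f w • (f : G → k₀)) χ] at h1
  have h2 : ∑ f ∈ Finset.univ.image χ,
      (((Finset.univ.filter fun a => χ a = f).card : k₀) * f w) • (f : G → k₀) = 0 := by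
    rw [← h1]
    apply Finset.sum_congr rfl
    intro f _
    rw [mul_smul, Nat.cast_smul_eq_nsmul]
  have h3 := linearIndependent_iff'.mp (linearIndependent_monoidHom G k₀) _ _ h2 (χ j)
    (Finset.mem_image_of_mem _ (Finset.mem_univ j))
  rcases mul_eq_zero.mp h3 with h4 | h4
  · exfalso
    rw [Nat.cast_eq_zero, Finset.card_eq_zero] at h4
    have : j ∈ Finset.univ.filter fun a => χ a = χ j := by simp
    rw [h4] at this
    simp at this
  · exact h4

end Hor

theorem not_dvd_discr_of_horAt {b : Module.Basis ι L E} {r : A} (hb : IsLattice p b r) {d₀ : A}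
    (hd₀ : algebraMap A L d₀ = Algebra.discr L b) {m : A} (hm : Prime m) (hmr : ¬ m ∣ r)
    (hor : HorAt L E m) : ¬ m ∣ d₀ := by
  intro hd
  obtain ⟨Λ, _, _, _, V, k₀, _, _, res, H1, H2, H3⟩ := hor
  obtain ⟨hbi, -, hbl⟩ := hb
  have hinjE : Function.Injective (algebraMap A E) := by
    rw [IsScalarTower.algebraMap_eq A L E]
    exact (algebraMap L E).injective.comp (IsFractionRing.injective A L)
  haveI : FaithfulSMul A E := (faithfulSMul_iff_algebraMap_injective A E).mpr hinjE
  let ψ0 : E →ₐ[L] Λ := IsAlgClosed.lift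
  have hA : ∀ Q : A, algebraMap L Λ (algebraMap A L Q) ∈ V := by
    intro Q
    have := H1 ψ0 (algebraMap A E Q) isIntegral_algebraMap
    rwa [IsScalarTower.algebraMap_apply A L E, AlgHom.commutes] at this
  have hV := Hor.exists_frac V res hm hA H2 H3
  obtain ⟨a, ⟨i0, hi0⟩, hker⟩ := Hor.exists_kernel hbi hd₀ hm hd
  set w : E := ∑ i, a i • b i with hw
  have hwI : IsIntegral A w := IsIntegral.sum _ fun i _ => (hbi i).smul (a i)
  have htr : ∀ c : E, IsIntegral A c →
      ∃ t : A, Algebra.trace L E (w * c) = algebraMap A L (m * t) :=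
    fun c hc => Hor.trace_mul_dvd hbl hm hmr hwI hker hc
  -- the characters
  let χ : (E →ₐ[L] Λ) → (integralClosure A E →* k₀) := fun ψ =>
    { toFun := fun c => res ⟨ψ c, H1 ψ c c.2⟩
      map_one' := by
        rw [← map_one res]
        congr 1
        exact Subtype.ext (map_one ψ)
      map_mul' := fun c c' => by
        rw [← map_mul res]
        congr 1
        exact Subtype.ext (map_mul ψ _ _) }
  have hsum : ∀ c : integralClosure A E, ∑ ψ, χ ψ ⟨w, hwI⟩ * χ ψ c = 0 := by
    intro c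
    obtain ⟨t, ht⟩ := htr c c.2
    have h1 : algebraMap L Λ (Algebra.trace L E (w * c)) = ∑ ψ : E →ₐ[L] Λ, ψ (w * c) :=
      trace_eq_sum_embeddings Λ
    have h2 : (∑ ψ : E →ₐ[L] Λ, ((⟨ψ w, H1 ψ w hwI⟩ : V) * ⟨ψ c, H1 ψ c c.2⟩)) =
        ⟨_, hA (m * t)⟩ := by
      apply Subtype.ext
      show _ = algebraMap L Λ (algebraMap A L (m * t))
      rw [← ht, h1]
      simp
    have h3 : res ⟨_, hA (m * t)⟩ = 0 := by
      rw [H2]
      refine ⟨⟨_, hA t⟩, ?_⟩
      show algebraMap L Λ (algebraMap A L (m * t)) = _ * algebraMap L Λ (algebraMap A L t)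
      rw [map_mul, map_mul]
    rw [← h3, ← h2, map_sum]
    apply Finset.sum_congr rfl
    intro ψ _
    rw [map_mul]
    rfl
  have hres : ∀ ψ : E →ₐ[L] Λ, res ⟨ψ w, H1 ψ w hwI⟩ = 0 := fun ψ => Hor.dedekind χ _ hsum ψ
  -- `z = w / m`
  have hm0 : algebraMap A E m ≠ 0 := by
    rw [Ne, map_eq_zero_iff _ hinjE]
    exact hm.ne_zero
  set z : E := (algebraMap A E m)⁻¹ * w with hz
  have hmz : m • z = w := by
    rw [Algebra.smul_def, hz, mul_inv_cancel_left₀ hm0]
  have hzV : ∀ ψ : E →ₐ[L] Λ, ψ z ∈ V := by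
    intro ψ
    obtain ⟨v', hv'⟩ := (H2 _).mp (hres ψ)
    have h1 : ψ w = algebraMap L Λ (algebraMap A L m) * v' := hv'
    have h2 : ψ (algebraMap A E m) = algebraMap L Λ (algebraMap A L m) := by
      rw [IsScalarTower.algebraMap_apply A L E, AlgHom.commutes]
    have h3 : algebraMap L Λ (algebraMap A L m) ≠ 0 := by
      rw [← h2]
      exact (map_ne_zero ψ).mpr hm0
    have h4 : ψ z = v' := by
      rw [hz, map_mul, map_inv₀, h2, h1, inv_mul_cancel_left₀ h3]
    rw [h4]
    exact v'.2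
  obtain ⟨β, hβ, hβI⟩ := exists_smul_isIntegral V hm hV z hzV
  have hzI : IsIntegral A z :=
    isIntegral_of_smul_of_smul (hm.irreducible.isRelPrime_iff_not_dvd.mpr hβ) hm.ne_zero
      (by rw [hmz]; exact hwI) hβI
  obtain ⟨a', ha'⟩ := hbl z hzI
  have h5 : ∑ i, (r * a i) • b i = ∑ i, (m * a' i) • b i := by
    simp only [mul_smul]
    rw [← Finset.smul_sum, ← Finset.smul_sum, ← ha', ← hw, ← hmz, smul_comm]
  have h6 := congrFun (Hor.coord_unique b h5) i0
  exact hi0 ((hm.dvd_or_dvd ⟨_, h6⟩).resolve_left hmr)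

end Fermat.Agent.S18.AU
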