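import Fermat.Agent.S18.AT.AU.Defs
import Fermat.Agent.S18.AT.Coprime
import Fermat.Agent.S18.AT.Basis

set_option autoImplicit false
set_option linter.style.haveILetI false

/-!
# S18 / AT / AU / Lattice : the integral closure is free near `V(p)`   (task AU-Lattice)

SKETCH.  `C := integralClosure A E`, a finite `A`-module (`IsIntegralClosure.finite A L E C`; `A` is
integrally closed (UFD), noetherian, `E/L` separable by characteristic `0`).  `Ā := A ⧸ span {p}` is a PID and a
domain.  `M̄ := C ⧸ (span {p} • ⊤)` is a finite `Ā`-module.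
(1) `M̄` is torsion free over `Ā`: if `q ∈ A`, `¬ p ∣ q`, `y ∈ C`, `q y = p y'` with `y' ∈ C`, put `z := y / p ∈ E`;
    `p • z = y` and `q • z = y'` are integral, `IsRelPrime p q`, so `z` is integral
    (`isIntegral_of_smul_of_smul`), i.e. `y ∈ p C`.
(2) so `M̄` is free (`Module.free_of_finite_type_torsion_free'`), choose a basis `b̄ j`, `j : Fin n'`, lift to
    `b j ∈ C`.
(3) `N := span_A (b j) ⊆ C` satisfies `N + p C = C`; Nakayama
    (`Submodule.exists_sub_one_mem_and_smul_eq_zero_of_fg_of_le_smul` applied to `C ⧸ N`, or
    `Submodule.exists_mem_and_smul_eq_self_of_fg_of_le_smul`…) gives `r` with `r - 1 ∈ (p)`, `r C ⊆ N`.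
(4) the `b j` are linearly independent over `A` (hence over `L`): from a nontrivial relation `∑ a_j b_j = 0`,
    divide by the largest common power of `p` (UFD / `E` torsion free), reduce mod `p`: contradiction with the
    independence of `b̄ j`.
(5) they span `E` over `L`: every `y : E` has `a • y ∈ C` for some `a ≠ 0`
    (`exists_integral_multiple`), `r ≠ 0` (else `p ∣ 1`).
(6) so `n' = finrank L E`; reindex.
Feel free to split the file into several lemmas / ask for a co-worker.
-/

noncomputable section

namespace Fermat.Agent.S18.AU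

variable {A L E : Type} [CommRing A] [IsDomain A] [UniqueFactorizationMonoid A] [IsNoetherianRing A]
  [Field L] [CharZero L] [Algebra A L] [IsFractionRing A L]
  [Field E] [Algebra L E] [FiniteDimensional L E] [Algebra A E] [IsScalarTower A L E]

theorem exists_lattice {p : A} (hp : Prime p) (hPID : IsPrincipalIdealRing (A ⧸ Ideal.span {p})) :
    ∃ (b : Module.Basis (Fin (Module.finrank L E)) L E) (r : A), IsLattice p b r := by
  haveI := hPID
  haveI : FaithfulSMul A E := by
    rw [faithfulSMul_iff_algebraMap_injective, IsScalarTower.algebraMap_eq A L E]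
    exact (algebraMap L E).injective.comp (IsFractionRing.injective A L)
  haveI : Module.Finite A (integralClosure A E) :=
    IsIntegralClosure.finite A L E (integralClosure A E)
  obtain ⟨n, b, r, hb, hr, hgen, hli⟩ := exists_basis_aux (A := A) (E := E) hp
  have hr0 : r ≠ 0 := by
    rintro rfl
    rw [zero_sub, dvd_neg] at hr
    exact hp.not_dvd_one hr
  have hli' : LinearIndependent L b := (LinearIndependent.iff_fractionRing A L).1 hli
  have hsp : ⊤ ≤ Submodule.span L (Set.range b) := by
    intro y _
    have halg : IsAlgebraic A y := by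
      have h1 : IsAlgebraic L y := Algebra.IsAlgebraic.isAlgebraic y
      exact (IsFractionRing.isAlgebraic_iff A L E).2 h1
    obtain ⟨a, ha, hay⟩ := halg.exists_integral_multiple
    obtain ⟨c, hc⟩ := hgen _ hay
    have hne : algebraMap A L (r * a) ≠ 0 := by
      rw [Ne, FaithfulSMul.algebraMap_eq_zero_iff]
      exact mul_ne_zero hr0 ha
    have e : y = (algebraMap A L (r * a))⁻¹ • ∑ i, c i • b i := by
      rw [← hc, smul_smul, ← algebraMap_smul L (r * a) y, smul_smul, inv_mul_cancel₀ hne,
        one_smul]
    rw [e]
    refine Submodule.smul_mem _ _ (Submodule.sum_mem _ fun i _ => ?_)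
    rw [← algebraMap_smul L (c i) (b i)]
    exact Submodule.smul_mem _ _ (Submodule.subset_span ⟨i, rfl⟩)
  set B : Module.Basis (Fin n) L E := Module.Basis.mk hli' hsp with hB
  have hn : n = Module.finrank L E := by
    rw [Module.finrank_eq_card_basis B, Fintype.card_fin]
  subst hn
  refine ⟨B, r, fun i => by rw [hB, Module.Basis.mk_apply]; exact hb i, hr, ?_⟩
  intro y hy
  obtain ⟨c, hc⟩ := hgen y hy
  refine ⟨c, ?_⟩
  simp only [hB, Module.Basis.mk_apply]
  exact hc

end Fermat.Agent.S18.AU
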