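import Fermat.Agent.S18.AT.AU.Integral

set_option autoImplicit false

/-!
# S18 / AT / AU / TraceEps : `Tr(ε z) ∈ A + p O_L`   (task AU-TraceEps)

SKETCH.  `ι := algebraMap L Ω`, `τ := Algebra.trace L E (ε * z)`, `ι τ = ∑_φ φ ε * φ z` (`trace_eq_sum_embeddings Ω`).
`S := {φ | φ ε - 1 ∈ nonunits}`, `τ' := ∑_{φ ∈ S} φ z`.  All `φ z ∈ O` (`intO_of_isIntegral`).
(1) `ι τ - τ' = ∑_{φ ∈ S} (φ ε - 1) φ z + ∑_{φ ∉ S} φ ε * φ z ∈ nonunits`; so `ι τ ∈ O`; `τ * s = α`, `¬ p ∣ s` (`exists_frac_of_mem`).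
(2) `τ'` is integral over `A` (`IsIntegral.sum`, `IsIntegral.map`): monic `P : A[X]`, `aeval τ' P = 0`.
(3) `aeval (ι τ) P ∈ nonunits`: in the ring `O`, `(a - b) ∣ P(a) - P(b)` (`Polynomial.sub_dvd_eval_sub` for `P.map (A → O)`).
(4) `N := ∑_j P.coeff j * α^j * s^(d-j) : A` (`d = natDegree P`) satisfies `ι N = (ι s)^d * aeval (ι τ) P ∈ nonunits`, so `p ∣ N`.
(5) `Ā := A ⧸ span {p}` is a domain and a PID, hence integrally closed.  In `FractionRing Ā`, `x := ᾱ / s̄` is a root of the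
    monic `P̄` (as `s̄^d * P̄(x) = N̄ = 0`, `s̄ ≠ 0`), so `x = β̄` for some `β : A`
    (`IsIntegrallyClosed.isIntegral_iff`, `Ideal.Quotient.mk_surjective`), i.e. `p ∣ α - s β`, `α - s β = p q`.
(6) `g := q / s`: `τ = β + p g`, and `ι g ∈ O` by `mem_of_frac`.
-/

noncomputable section

namespace Fermat.Agent.S18.AU

open Polynomial

variable {A L E Ω : Type} [CommRing A] [IsDomain A] [UniqueFactorizationMonoid A]
  [Field L] [CharZero L] [Algebra A L] [IsFractionRing A L]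
  [Field E] [Algebra L E] [FiniteDimensional L E] [Algebra A E] [IsScalarTower A L E]
  [Field Ω] [IsAlgClosed Ω] [Algebra L Ω] [Algebra A Ω] [IsScalarTower A L Ω]
  {p : A} {O : ValuationSubring Ω}

namespace TraceEps

/-- `P(a) - P(b) ∈ 𝔪` when `a - b ∈ 𝔪`, `a, b ∈ O`, `P` with coefficients in `O`. -/
theorem eval₂_sub_mem {A Ω : Type} [CommRing A] [Field Ω] (O : ValuationSubring Ω) (f : A →+* Ω)
    (hf : ∀ Q, f Q ∈ O) (P : A[X]) {a b : Ω} (ha : a ∈ O) (hb : b ∈ O) (hab : a - b ∈ O.nonunits) :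
    P.eval₂ f a - P.eval₂ f b ∈ O.nonunits := by
  set fO : A →+* O := f.codRestrict O.toSubring hf with hfO
  have hcomp : O.subtype.comp fO = f := by ext Q; rfl
  obtain ⟨c, hc⟩ := Polynomial.sub_dvd_eval_sub (⟨a, ha⟩ : O) ⟨b, hb⟩ (P.map fO)
  have h1 : ∀ (x : Ω) (hx : x ∈ O), P.eval₂ f x = O.subtype ((P.map fO).eval ⟨x, hx⟩) := by
    intro x hx
    rw [eval_map, hom_eval₂, hcomp]
    rfl
  rw [h1 a ha, h1 b hb, ← map_sub, hc, map_mul]
  exact mul_mem_nonunits' O hab c.2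

end TraceEps

open TraceEps in
theorem trace_idem (hp : Prime p) (hPID : IsPrincipalIdealRing (A ⧸ Ideal.span {p}))
    (hG : GaussA p O) {ε : E} (hε : IdemL L O ε) {z : E} (hz : IsIntegral A z) :
    ∃ (β : A) (g : L), algebraMap L Ω g ∈ O ∧
      Algebra.trace L E (ε * z) = algebraMap A L β + algebraMap A L p * g := by
  classical
  set τ : L := Algebra.trace L E (ε * z) with hτ
  have hzO : ∀ φ : E →ₐ[L] Ω, φ z ∈ O := intO_of_isIntegral hG hz
  have hsum : algebraMap L Ω τ = ∑ φ : E →ₐ[L] Ω, φ (ε * z) := trace_eq_sum_embeddings Ω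
  set S : Finset (E →ₐ[L] Ω) := Finset.univ.filter (fun φ => φ ε - 1 ∈ O.nonunits) with hS
  set τ' : Ω := ∑ φ ∈ S, φ z with hτ'
  have hτ'O : τ' ∈ O := sum_mem fun φ _ => hzO φ
  -- (1)
  have h1 : algebraMap L Ω τ - τ' ∈ O.nonunits := by
    have e : algebraMap L Ω τ - τ'
        = ∑ φ : E →ₐ[L] Ω, (φ (ε * z) - if φ ∈ S then φ z else 0) := by
      rw [Finset.sum_sub_distrib, ← hsum, hτ', Finset.sum_ite_mem, Finset.univ_inter]
    rw [e]
    apply sum_mem_nonunits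
    intro φ _
    split_ifs with hφ
    · have : φ (ε * z) - φ z = (φ ε - 1) * φ z := by rw [map_mul]; ring
      rw [this]
      exact mul_mem_nonunits' O (Finset.mem_filter.1 hφ).2 (hzO φ)
    · rw [sub_zero, map_mul]
      have : φ ε ∈ O.nonunits := (hε φ).resolve_right (fun h => hφ (Finset.mem_filter.2 ⟨Finset.mem_univ _, h⟩))
      exact mul_mem_nonunits' O this (hzO φ)
  have hτO : algebraMap L Ω τ ∈ O := by
    have : algebraMap L Ω τ = (algebraMap L Ω τ - τ') + τ' := by ring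
    rw [this]
    exact O.add_mem _ _ (mem_of_mem_nonunits O h1) hτ'O
  obtain ⟨α, s, hs, hαs⟩ := exists_frac_of_mem hp hG τ hτO
  -- (2)
  have hint : IsIntegral A τ' := by
    apply IsIntegral.sum
    intro φ _
    exact hz.map (φ.restrictScalars A)
  obtain ⟨P, hPm, hP⟩ := hint
  -- (3)
  have h3 : P.eval₂ (algebraMap A Ω) (algebraMap L Ω τ) ∈ O.nonunits := by
    have := eval₂_sub_mem O (algebraMap A Ω) (fun Q => (hG Q).1) P hτO hτ'O h1
    rwa [hP, sub_zero] at this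
  -- (4)
  set N : A := (scaleRoots P s).eval α with hN
  have hαΩ : algebraMap A Ω s * algebraMap L Ω τ = algebraMap A Ω α := by
    rw [IsScalarTower.algebraMap_apply A L Ω, IsScalarTower.algebraMap_apply A L Ω, ← map_mul,
      mul_comm, hαs]
  have h4 : p ∣ N := by
    rw [← (hG N).2, hN, ← eval₂_at_apply, ← hαΩ, scaleRoots_eval₂_mul]
    exact mul_mem_nonunits O (O.pow_mem (hG s).1 _) h3
  -- (5)
  have hprime : (Ideal.span {p}).IsPrime := (Ideal.span_singleton_prime hp.ne_zero).2 hp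
  set Ab := A ⧸ Ideal.span {p} with hAb
  set Fb := FractionRing Ab with hFb
  set mk : A →+* Ab := Ideal.Quotient.mk _ with hmk
  set gg : A →+* Fb := (algebraMap Ab Fb).comp mk with hgg
  have hmk0 : ∀ Q : A, mk Q = 0 ↔ p ∣ Q := fun Q => by
    rw [hmk, Ideal.Quotient.eq_zero_iff_mem, Ideal.mem_span_singleton]
  have hgg0 : ∀ Q : A, gg Q = 0 ↔ p ∣ Q := fun Q => by
    rw [hgg, RingHom.comp_apply, map_eq_zero_iff _ (IsFractionRing.injective Ab Fb), hmk0]
  have hgs : gg s ≠ 0 := fun h => hs ((hgg0 s).1 h)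
  set x : Fb := gg α / gg s with hx
  have hroot : P.eval₂ gg x = 0 := by
    have e : gg s ^ P.natDegree * P.eval₂ gg x = 0 := by
      rw [← scaleRoots_eval₂_mul, hx, mul_div_cancel₀ _ hgs, eval₂_at_apply, ← hN, (hgg0 N).2 h4]
    exact (mul_eq_zero.1 e).resolve_left (pow_ne_zero _ hgs)
  have hxint : IsIntegral Ab x := by
    refine ⟨P.map mk, hPm.map _, ?_⟩
    rw [eval₂_map]
    exact hroot
  obtain ⟨βb, hβb⟩ := IsIntegrallyClosed.isIntegral_iff.1 hxint
  obtain ⟨β, rfl⟩ := Ideal.Quotient.mk_surjective βb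
  have h5 : p ∣ α - s * β := by
    rw [← hgg0, map_sub, map_mul, sub_eq_zero]
    have : gg β = x := hβb
    rw [this, hx, mul_div_cancel₀ _ hgs]
  obtain ⟨q, hq⟩ := h5
  -- (6)
  have hsL : algebraMap A L s ≠ 0 := by
    rw [Ne, map_eq_zero_iff _ (IsFractionRing.injective A L)]
    rintro rfl
    exact hs (dvd_zero p)
  refine ⟨β, algebraMap A L q / algebraMap A L s, ?_, ?_⟩
  · exact mem_of_frac hG hs (div_mul_cancel₀ _ hsL)
  · have e : algebraMap A L α = algebraMap A L s * algebraMap A L β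
        + algebraMap A L p * algebraMap A L q := by
      rw [← map_mul, ← map_mul, ← map_add, ← hq]
      congr 1
      ring
    field_simp
    rw [hαs, e]
    ring

end Fermat.Agent.S18.AU
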