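import Fermat.Agent.S18.AT.AU.Det
import Fermat.Agent.S18.AT.AU.Hor
import Fermat.Agent.S18.AT.AU.Lattice
import Fermat.Agent.S18.AT.AU.DvdPow
import Fermat.Agent.S18.AT.AU.TraceEps

set_option autoImplicit false
set_option linter.unusedSectionVars false

/-!
# S18 / AT / AU / Final : the abstract unramified chart theorem and "lemma P"   (task AU-Final)

SKETCH of `auct`.  `exists_lattice` gives `b, r`; `exists_discr` gives `d₀`, `¬ p ∣ d₀` (so `d₀ ≠ 0`).
(1) every prime `m ∣ d₀` divides `W * r`: otherwise `¬ m ∣ W`, `¬ m ∣ r`, `m` is not associated to `p` (as `¬ p ∣ d₀`), so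
    `HorAt L E m` by `hW`, contradiction with `not_dvd_discr_of_horAt`.  `exists_pow_eq_mul`: `(W r)^k = a d₀`.
    As `p ∣ r - 1`: `p ∣ W^k - a d₀`, say `W^k = a d₀ + p q`.
(2) `g i := b.repr ε i`; `T := traceMatrix L b`, `T = T'.map (algebraMap A L)` with `T' : Matrix ι ι A`, `det T' = d₀`.
    `Tr (ε * b j) = ∑_i g i * T i j`, and `= β_j + p h_j` by `trace_idem`.  Cramer (`Matrix.mul_adjugate` /
    `adjugate_mul`): `d₀ g i = ∑_j adj(T')_{..} (β_j + p h_j) = a'_i + p h'_i` with `a'_i : A`, `ι h'_i ∈ O`.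
(3) `d₀ • ε = y₀ + p • η₀`, `y₀ := ∑ a'_i • b i` integral, `η₀ := ∑ h'_i • b i`, `IntO L O η₀` (each `φ (b i) ∈ O`), so `LocInt p η₀`
    (`locInt_of_intO`).
(4) `W^k • ε = a • y₀ + p • (a • η₀ + q • ε)`; `ε` is `IntO` (from `IdemL`), so `η := -(a • η₀ + q • ε)` is `IntO`, hence `LocInt`.
SKETCH of `exists_eq_smul_of_nonunits`.  `repr_mem_nonunits` + `exists_eq_mul_of_mem_nonunits`:
`b.repr y i = p * g'_i`, `ι g'_i ∈ O`; `η := ∑ g'_i • b i` is `IntO`, so `LocInt`; `y = p • η` (`b.sum_repr`).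
-/

noncomputable section

namespace Fermat.Agent.S18.AU

variable {A L E Ω : Type} [CommRing A] [IsDomain A] [UniqueFactorizationMonoid A] [IsNoetherianRing A]
  [Field L] [CharZero L] [Algebra A L] [IsFractionRing A L]
  [Field E] [Algebra L E] [FiniteDimensional L E] [Algebra A E] [IsScalarTower A L E]
  [Field Ω] [IsAlgClosed Ω] [Algebra L Ω] [Algebra A Ω] [IsScalarTower A L Ω]
  {p : A} {O : ValuationSubring Ω}

namespace Final

theorem map_smulA (φ : E →ₐ[L] Ω) (a : A) (y : E) : φ (a • y) = algebraMap A Ω a * φ y := by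
  rw [← algebraMap_smul L a y, map_smul, Algebra.smul_def, ← IsScalarTower.algebraMap_apply]

theorem intO_add {y z : E} (hy : IntO L O y) (hz : IntO L O z) : IntO L O (y + z) := fun φ => by
  rw [map_add]; exact O.add_mem _ _ (hy φ) (hz φ)

theorem intO_neg {y : E} (hy : IntO L O y) : IntO L O (-y) := fun φ => by
  rw [map_neg]; exact O.neg_mem _ (hy φ)

theorem intO_smulA (hG : GaussA p O) (a : A) {y : E} (hy : IntO L O y) : IntO L O (a • y) :=
  fun φ => by
    rw [map_smulA]; exact O.mul_mem _ _ (hG a).1 (hy φ)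

theorem intO_sum_smul {ι : Type} [Fintype ι] (g : ι → L) (hg : ∀ i, algebraMap L Ω (g i) ∈ O)
    (b : ι → E) (hb : ∀ i, IntO L O (b i)) : IntO L O (∑ i, g i • b i) := fun φ => by
  rw [map_sum]
  refine O.toSubring.sum_mem fun i _ => ?_
  rw [map_smul, Algebra.smul_def]
  exact O.mul_mem _ _ (hg i) (hb i φ)

theorem intO_of_idemL {ε : E} (hε : IdemL L O ε) : IntO L O ε := fun φ => by
  rcases hε φ with h | h
  · exact mem_of_mem_nonunits O h
  · have : φ ε = (φ ε - 1) + 1 := by ring
    rw [this]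
    exact O.add_mem _ _ (mem_of_mem_nonunits O h) O.one_mem

end Final

open Final in
/-- **abstract unramified chart theorem.** -/
theorem auct (hp : Prime p) (hPID : IsPrincipalIdealRing (A ⧸ Ideal.span {p})) (hG : GaussA p O)
    (hD : DRed L E O) (W : A)
    (hW : ∀ m : A, Prime m → ¬ m ∣ W → ¬ Associated m p → HorAt L E m)
    {ε : E} (hε : IdemL L O ε) :
    ∃ (k : ℕ) (y η : E), IsIntegral A y ∧ LocInt p η ∧ y - W ^ k • ε = p • η := by
  classical
  obtain ⟨b, r, hb⟩ := exists_lattice (L := L) (E := E) hp hPID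
  obtain ⟨d₀, hd₀, hpd₀⟩ := exists_discr hp hG hD hb
  have hd₀ne : d₀ ≠ 0 := fun h => hpd₀ (h ▸ dvd_zero p)
  have hinj : Function.Injective (algebraMap A L) := IsFractionRing.injective A L
  -- (1)
  have h1 : ∀ m, Prime m → m ∣ d₀ → m ∣ W * r := by
    intro m hm hmd
    by_contra hcon
    have hmW : ¬ m ∣ W := fun h => hcon (h.mul_right r)
    have hmr : ¬ m ∣ r := fun h => hcon (h.mul_left W)
    have hmp : ¬ Associated m p := fun h => hpd₀ (h.symm.dvd.trans hmd)
    exact not_dvd_discr_of_horAt hb hd₀ hm hmr (hW m hm hmW hmp) hmd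
  obtain ⟨k, a, hka⟩ := exists_pow_eq_mul hd₀ne h1
  obtain ⟨q, hq⟩ : p ∣ W ^ k - a * d₀ := by
    have h2 : p ∣ r ^ k - 1 := by
      have := sub_dvd_pow_sub_pow r 1 k
      rw [one_pow] at this
      exact hb.2.1.trans this
    have h3 : W ^ k - a * d₀ = -(W ^ k * (r ^ k - 1)) := by
      rw [← hka, mul_pow]; ring
    rw [h3]
    exact (h2.mul_left _).neg_right
  -- (2) the trace matrix
  have hT : ∀ i j, ∃ c : A, algebraMap A L c = Algebra.trace L E (b i * b j) := fun i j =>
    (IsIntegrallyClosed.isIntegral_iff (R := A) (K := L)).1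
      (Algebra.isIntegral_trace ((hb.1 i).mul (hb.1 j)))
  choose T' hT' using hT
  have hTmap : (algebraMap A L).mapMatrix (Matrix.of T') = Algebra.traceMatrix L b := by
    ext i j
    simp only [RingHom.mapMatrix_apply, Matrix.map_apply, Matrix.of_apply, hT',
      Algebra.traceMatrix_apply, Algebra.traceForm_apply]
  have hdet : (Algebra.traceMatrix L b).det = algebraMap A L d₀ := by
    rw [hd₀, Algebra.discr_def]
  choose β h hhO hβh using fun j => trace_idem hp hPID hG hε (hb.1 j)
  set g : Fin (Module.finrank L E) → L := fun i => b.repr ε i with hg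
  have hc : ∀ j, Algebra.trace L E (ε * b j) = ∑ i, g i * Algebra.traceMatrix L b i j := by
    intro j
    conv_lhs => rw [← b.sum_repr ε]
    rw [Finset.sum_mul, map_sum]
    refine Finset.sum_congr rfl fun i _ => ?_
    rw [smul_mul_assoc, map_smul, smul_eq_mul, Algebra.traceMatrix_apply, Algebra.traceForm_apply]
  set adj : Matrix _ _ A := (Matrix.of T').adjugate with hadj
  have hadjmap : (algebraMap A L).mapMatrix adj = (Algebra.traceMatrix L b).adjugate := by
    rw [hadj, RingHom.map_adjugate, hTmap]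
  have hcramer : ∀ i, algebraMap A L d₀ * g i =
      ∑ j, Algebra.trace L E (ε * b j) * algebraMap A L (adj j i) := by
    intro i
    have e1 : Matrix.vecMul (Matrix.vecMul g (Algebra.traceMatrix L b))
        (Algebra.traceMatrix L b).adjugate = algebraMap A L d₀ • g := by
      rw [Matrix.vecMul_vecMul, Matrix.mul_adjugate, hdet, Matrix.vecMul_smul, Matrix.vecMul_one]
    have e2 := congrFun e1 i
    rw [Pi.smul_apply, smul_eq_mul] at e2
    rw [← e2, Matrix.vecMul, dotProduct]
    refine Finset.sum_congr rfl fun j _ => ?_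
    rw [hc j, ← hadjmap]
    rfl
  set a' : Fin (Module.finrank L E) → A := fun i => ∑ j, β j * adj j i with ha'
  set h' : Fin (Module.finrank L E) → L := fun i => ∑ j, h j * algebraMap A L (adj j i) with hh'
  have hh'O : ∀ i, algebraMap L Ω (h' i) ∈ O := by
    intro i
    rw [hh', map_sum]
    refine O.toSubring.sum_mem fun j _ => ?_
    rw [map_mul, ← IsScalarTower.algebraMap_apply]
    exact O.mul_mem _ _ (hhO j) (hG _).1
  have hsplit : ∀ i, algebraMap A L d₀ * g i = algebraMap A L (a' i) + algebraMap A L p * h' i := by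
    intro i
    rw [hcramer i, ha', hh', map_sum, Finset.mul_sum, ← Finset.sum_add_distrib]
    refine Finset.sum_congr rfl fun j _ => ?_
    rw [hβh j, map_mul]
    ring
  -- (3)
  set y₀ : E := ∑ i, a' i • b i with hy₀
  set η₀ : E := ∑ i, h' i • b i with hη₀
  have hy₀int : IsIntegral A y₀ := IsIntegral.sum _ fun i _ => (hb.1 i).smul (a' i)
  have hη₀int : IntO L O η₀ := intO_sum_smul h' hh'O b fun i => intO_of_isIntegral hG (hb.1 i)
  have h3 : d₀ • ε = y₀ + p • η₀ := by
    conv_lhs => rw [← b.sum_repr ε]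
    rw [hy₀, hη₀, Finset.smul_sum, Finset.smul_sum, ← Finset.sum_add_distrib]
    refine Finset.sum_congr rfl fun i _ => ?_
    rw [← algebraMap_smul L d₀, smul_smul, hsplit i, add_smul, mul_smul, algebraMap_smul,
      algebraMap_smul]
  -- (4)
  refine ⟨k, a • y₀, -(a • η₀ + q • ε), hy₀int.smul a, locInt_of_intO hp hG
    (intO_neg (intO_add (intO_smulA hG a hη₀int) (intO_smulA hG q (intO_of_idemL hε)))), ?_⟩
  have h4 : W ^ k = a * d₀ + p * q := by rw [← hq]; ring
  rw [h4, add_smul, mul_smul, h3, mul_smul, smul_add, smul_neg, smul_add, smul_comm a p η₀]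
  abel

open Final in
/-- **lemma P** (the valuation `O` is unramified in `E`). -/
theorem exists_eq_smul_of_nonunits (hp : Prime p)
    (hPID : IsPrincipalIdealRing (A ⧸ Ideal.span {p})) (hG : GaussA p O) (hD : DRed L E O) {y : E}
    (hy : ∀ φ : E →ₐ[L] Ω, φ y ∈ O.nonunits) : ∃ η : E, LocInt p η ∧ y = p • η := by
  classical
  obtain ⟨b, r, hb⟩ := exists_lattice (L := L) (E := E) hp hPID
  choose g' hg'O hg' using fun i =>
    exists_eq_mul_of_mem_nonunits hp hG _ (repr_mem_nonunits hp hG hD hb hy i)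
  refine ⟨∑ i, g' i • b i, locInt_of_intO hp hG
    (intO_sum_smul g' hg'O b fun i => intO_of_isIntegral hG (hb.1 i)), ?_⟩
  conv_lhs => rw [← b.sum_repr y]
  rw [Finset.smul_sum]
  refine Finset.sum_congr rfl fun i _ => ?_
  rw [hg' i, mul_smul, algebraMap_smul]

end Fermat.Agent.S18.AU
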