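import Fermat.Agent.S18.AT.AU.TraceEps

set_option autoImplicit false
set_option linter.unusedSectionVars false

/-!
# S18 / AT / AU / TraceInt : `Tr(ε z) ∈ A + p O_L` for `ε` integral over `A` modulo `𝔪_O`

Generalisation of `trace_idem` (`IdemL` is the case `P = X ^ 2 - X`).
-/

noncomputable section

namespace Fermat.Agent.S18.AU

open Polynomial

/-- all conjugates of `ε` lie in `O`, and `ε` is a root modulo `𝔪_O` of a monic polynomial over `A`. -/
def IntL (A L : Type) {E Ω : Type} [CommRing A] [Field L] [Field E] [Field Ω] [Algebra L E]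
    [Algebra L Ω] [Algebra A E] (O : ValuationSubring Ω) (ε : E) : Prop :=
  IntO L O ε ∧ ∃ P : A[X], P.Monic ∧ ∀ φ : E →ₐ[L] Ω, φ (aeval ε P) ∈ O.nonunits

namespace TraceInt

section
variable {A Ω : Type} [CommRing A] [Field Ω] (O : ValuationSubring Ω) (f : A →+* Ω)
  (hf : ∀ Q, f Q ∈ O)

/-- `a ∈ O` is a root mod `𝔪_O` of a monic polynomial over `A`. -/
def QInt (a : Ω) : Prop := a ∈ O ∧ ∃ P : A[X], P.Monic ∧ P.eval₂ f a ∈ O.nonunits

/-- the map `A → O / 𝔪_O`. -/
def resHom : A →+* IsLocalRing.ResidueField O :=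
  (IsLocalRing.residue O).comp (f.codRestrict O.toSubring hf)

theorem residue_eq_zero_iff (a : O) : IsLocalRing.residue O a = 0 ↔ (a : Ω) ∈ O.nonunits := by
  rw [IsLocalRing.residue_eq_zero_iff, ValuationSubring.mem_nonunits_iff_exists_mem_maximalIdeal]
  exact ⟨fun h => ⟨a.2, h⟩, fun ⟨_, h⟩ => h⟩

theorem eval₂_resHom (P : A[X]) (a : O) :
    P.eval₂ (resHom O f hf) (IsLocalRing.residue O a) =
      IsLocalRing.residue O ⟨P.eval₂ f a, by
        rw [eval₂_eq_sum_range]
        exact sum_mem fun i _ => O.mul_mem _ _ (hf _) (O.pow_mem a.2 _)⟩ := by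
  have h1 : P.eval₂ (resHom O f hf) (IsLocalRing.residue O a) =
      IsLocalRing.residue O (P.eval₂ (f.codRestrict O.toSubring hf) a) := by
    rw [hom_eval₂]; rfl
  rw [h1]
  congr 1
  apply Subtype.ext
  have h2 : O.subtype (P.eval₂ (f.codRestrict O.toSubring hf) a) = P.eval₂ f (a : Ω) := by
    rw [hom_eval₂]
    congr 1
  exact h2

theorem qInt_iff (a : O) :
    QInt O f (a : Ω) ↔ (resHom O f hf).IsIntegralElem (IsLocalRing.residue O a) := by
  constructor
  · rintro ⟨-, P, hPm, hP⟩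
    refine ⟨P, hPm, ?_⟩
    rw [eval₂_resHom, residue_eq_zero_iff]
    exact hP
  · rintro ⟨P, hPm, hP⟩
    refine ⟨a.2, P, hPm, ?_⟩
    rw [eval₂_resHom, residue_eq_zero_iff] at hP
    exact hP

include hf in
theorem QInt.add {a b : Ω} (ha : QInt O f a) (hb : QInt O f b) : QInt O f (a + b) := by
  have h1 := (qInt_iff O f hf ⟨a, ha.1⟩).1 ha
  have h2 := (qInt_iff O f hf ⟨b, hb.1⟩).1 hb
  have h3 := h1.add _ h2
  rw [← map_add] at h3
  exact (qInt_iff O f hf _).2 h3

include hf in
theorem QInt.mul {a b : Ω} (ha : QInt O f a) (hb : QInt O f b) : QInt O f (a * b) := by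
  have h1 := (qInt_iff O f hf ⟨a, ha.1⟩).1 ha
  have h2 := (qInt_iff O f hf ⟨b, hb.1⟩).1 hb
  have h3 := h1.mul _ h2
  rw [← map_mul] at h3
  exact (qInt_iff O f hf _).2 h3

include hf in
theorem QInt.zero : QInt O f 0 :=
  ⟨O.zero_mem, X, monic_X, by rw [eval₂_X]; exact zero_mem_nonunits O⟩

include hf in
theorem QInt.sum {ι : Type*} (s : Finset ι) (g : ι → Ω) (h : ∀ i ∈ s, QInt O f (g i)) :
    QInt O f (∑ i ∈ s, g i) := by
  classical
  induction s using Finset.induction_on with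
  | empty => simpa using QInt.zero O f hf
  | insert a s ha ih =>
    rw [Finset.sum_insert ha]
    exact QInt.add O f hf (h a (Finset.mem_insert_self _ _))
      (ih fun i hi => h i (Finset.mem_insert_of_mem hi))

end

end TraceInt

variable {A L E Ω : Type} [CommRing A] [IsDomain A] [UniqueFactorizationMonoid A]
  [Field L] [CharZero L] [Algebra A L] [IsFractionRing A L]
  [Field E] [Algebra L E] [FiniteDimensional L E] [Algebra A E] [IsScalarTower A L E]
  [Field Ω] [IsAlgClosed Ω] [Algebra L Ω] [Algebra A Ω] [IsScalarTower A L Ω]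
  {p : A} {O : ValuationSubring Ω}

/-- an element `τ` of `L` which is in `O` and integral over `A` mod `𝔪_O` lies in `A + p O_L`
(`A / p` is integrally closed). -/
theorem mem_add_of_monic (hp : Prime p) (hPID : IsPrincipalIdealRing (A ⧸ Ideal.span {p}))
    (hG : GaussA p O) (τ : L) (hτO : algebraMap L Ω τ ∈ O) (P : A[X]) (hPm : P.Monic)
    (h3 : P.eval₂ (algebraMap A Ω) (algebraMap L Ω τ) ∈ O.nonunits) :
    ∃ (β : A) (g : L), algebraMap L Ω g ∈ O ∧ τ = algebraMap A L β + algebraMap A L p * g := by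
  obtain ⟨α, s, hs, hαs⟩ := exists_frac_of_mem hp hG τ hτO
  set N : A := (scaleRoots P s).eval α with hN
  have hαΩ : algebraMap A Ω s * algebraMap L Ω τ = algebraMap A Ω α := by
    rw [IsScalarTower.algebraMap_apply A L Ω, IsScalarTower.algebraMap_apply A L Ω, ← map_mul,
      mul_comm, hαs]
  have h4 : p ∣ N := by
    rw [← (hG N).2, hN, ← eval₂_at_apply, ← hαΩ, scaleRoots_eval₂_mul]
    exact mul_mem_nonunits O (O.pow_mem (hG s).1 _) h3
  have hprime : (Ideal.span {p}).IsPrime := (Ideal.span_singleton_prime hp.ne_zero).2 hp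
  set Ab := A ⧸ Ideal.span {p} with hAb
  set Fb := FractionRing Ab with hFb
  set mk : A →+* Ab := Ideal.Quotient.mk _ with hmk
  set gg : A →+* Fb := (algebraMap Ab Fb).comp mk with hgg
  have hmk0 : ∀ Q : A, mk Q = 0 ↔ p ∣ Q := fun Q => by
    rw [hmk, Ideal.Quotient.eq_zero_iff_mem, Ideal.mem_span_singleton]
  have hgg0 : ∀ Q : A, gg Q = 0 ↔ p ∣ Q := fun Q => by
    rw [hgg, RingHom.comp_apply, map_eq_zero_iff _ (IsFractionRing.injective Ab Fb), hmk0]
  have hgs : gg s ≠ 0 := fun h => hs ((hgg0 s).1 h)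
  set x : Fb := gg α / gg s with hx
  have hroot : P.eval₂ gg x = 0 := by
    have e : gg s ^ P.natDegree * P.eval₂ gg x = 0 := by
      rw [← scaleRoots_eval₂_mul, hx, mul_div_cancel₀ _ hgs, eval₂_at_apply, ← hN, (hgg0 N).2 h4]
    exact (mul_eq_zero.1 e).resolve_left (pow_ne_zero _ hgs)
  have hxint : IsIntegral Ab x := by
    refine ⟨P.map mk, hPm.map _, ?_⟩
    rw [eval₂_map]
    exact hroot
  obtain ⟨βb, hβb⟩ := IsIntegrallyClosed.isIntegral_iff.1 hxint
  obtain ⟨β, rfl⟩ := Ideal.Quotient.mk_surjective βb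
  have h5 : p ∣ α - s * β := by
    rw [← hgg0, map_sub, map_mul, sub_eq_zero]
    have : gg β = x := hβb
    rw [this, hx, mul_div_cancel₀ _ hgs]
  obtain ⟨q, hq⟩ := h5
  have hsL : algebraMap A L s ≠ 0 := by
    rw [Ne, map_eq_zero_iff _ (IsFractionRing.injective A L)]
    rintro rfl
    exact hs (dvd_zero p)
  refine ⟨β, algebraMap A L q / algebraMap A L s, ?_, ?_⟩
  · exact mem_of_frac hG hs (div_mul_cancel₀ _ hsL)
  · have e : algebraMap A L α = algebraMap A L s * algebraMap A L β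
        + algebraMap A L p * algebraMap A L q := by
      rw [← map_mul, ← map_mul, ← map_add, ← hq]
      congr 1
      ring
    field_simp
    rw [hαs, e]
    ring

open TraceInt in
theorem trace_intL (hp : Prime p) (hPID : IsPrincipalIdealRing (A ⧸ Ideal.span {p}))
    (hG : GaussA p O) {ε : E} (hε : IntL A L O ε) {z : E} (hz : IsIntegral A z) :
    ∃ (β : A) (g : L), algebraMap L Ω g ∈ O ∧
      Algebra.trace L E (ε * z) = algebraMap A L β + algebraMap A L p * g := by
  have hf : ∀ Q, algebraMap A Ω Q ∈ O := fun Q => (hG Q).1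
  have hsum : algebraMap L Ω (Algebra.trace L E (ε * z)) = ∑ φ : E →ₐ[L] Ω, φ (ε * z) :=
    trace_eq_sum_embeddings Ω
  obtain ⟨hεO, Pε, hPεm, hPε⟩ := hε
  have hq : QInt O (algebraMap A Ω) (algebraMap L Ω (Algebra.trace L E (ε * z))) := by
    rw [hsum]
    apply QInt.sum O _ hf
    intro φ _
    rw [map_mul]
    apply QInt.mul O _ hf
    · refine ⟨hεO φ, Pε, hPεm, ?_⟩
      have h1 : Pε.eval₂ (algebraMap A Ω) (φ ε) = φ (aeval ε Pε) := by
        have := Polynomial.aeval_algHom_apply (φ.restrictScalars A) ε Pε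
        rw [aeval_def] at this
        exact this
      rw [h1]; exact hPε φ
    · obtain ⟨Pz, hPzm, hPz⟩ := hz.map (φ.restrictScalars A)
      refine ⟨intO_of_isIntegral hG hz φ, Pz, hPzm, ?_⟩
      have : Pz.eval₂ (algebraMap A Ω) (φ z) = 0 := hPz
      rw [this]; exact zero_mem_nonunits O
  obtain ⟨hτO, P, hPm, hP⟩ := hq
  exact mem_add_of_monic hp hPID hG _ hτO P hPm hP

end Fermat.Agent.S18.AU
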