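import Fermat.Agent.S18.AT.AU.Final
import Fermat.Agent.S18.AT.AU.TraceInt

set_option autoImplicit false
set_option linter.unusedSectionVars false

/-!
# S18 / AT / AU / FinalInt : the abstract unramified chart theorem for `IntL` elements

Same proof as `auct`, with `trace_intL` instead of `trace_idem`.
-/

noncomputable section

namespace Fermat.Agent.S18.AU

variable {A L E Ω : Type} [CommRing A] [IsDomain A] [UniqueFactorizationMonoid A] [IsNoetherianRing A]
  [Field L] [CharZero L] [Algebra A L] [IsFractionRing A L]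
  [Field E] [Algebra L E] [FiniteDimensional L E] [Algebra A E] [IsScalarTower A L E]
  [Field Ω] [IsAlgClosed Ω] [Algebra L Ω] [Algebra A Ω] [IsScalarTower A L Ω]
  {p : A} {O : ValuationSubring Ω}

open Final in
/-- **abstract unramified chart theorem**, for `ε` integral over `A` modulo `𝔪_O`. -/
theorem auct_int (hp : Prime p) (hPID : IsPrincipalIdealRing (A ⧸ Ideal.span {p})) (hG : GaussA p O)
    (hD : DRed L E O) (W : A)
    (hW : ∀ m : A, Prime m → ¬ m ∣ W → ¬ Associated m p → HorAt L E m)
    {ε : E} (hε : IntL A L O ε) :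
    ∃ (k : ℕ) (y η : E), IsIntegral A y ∧ LocInt p η ∧ y - W ^ k • ε = p • η := by
  classical
  obtain ⟨b, r, hb⟩ := exists_lattice (L := L) (E := E) hp hPID
  obtain ⟨d₀, hd₀, hpd₀⟩ := exists_discr hp hG hD hb
  have hd₀ne : d₀ ≠ 0 := fun h => hpd₀ (h ▸ dvd_zero p)
  have hinj : Function.Injective (algebraMap A L) := IsFractionRing.injective A L
  -- (1)
  have h1 : ∀ m, Prime m → m ∣ d₀ → m ∣ W * r := by
    intro m hm hmd
    by_contra hcon
    have hmW : ¬ m ∣ W := fun h => hcon (h.mul_right r)
    have hmr : ¬ m ∣ r := fun h => hcon (h.mul_left W)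
    have hmp : ¬ Associated m p := fun h => hpd₀ (h.symm.dvd.trans hmd)
    exact not_dvd_discr_of_horAt hb hd₀ hm hmr (hW m hm hmW hmp) hmd
  obtain ⟨k, a, hka⟩ := exists_pow_eq_mul hd₀ne h1
  obtain ⟨q, hq⟩ : p ∣ W ^ k - a * d₀ := by
    have h2 : p ∣ r ^ k - 1 := by
      have := sub_dvd_pow_sub_pow r 1 k
      rw [one_pow] at this
      exact hb.2.1.trans this
    have h3 : W ^ k - a * d₀ = -(W ^ k * (r ^ k - 1)) := by
      rw [← hka, mul_pow]; ring
    rw [h3]
    exact (h2.mul_left _).neg_right
  -- (2) the trace matrix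
  have hT : ∀ i j, ∃ c : A, algebraMap A L c = Algebra.trace L E (b i * b j) := fun i j =>
    (IsIntegrallyClosed.isIntegral_iff (R := A) (K := L)).1
      (Algebra.isIntegral_trace ((hb.1 i).mul (hb.1 j)))
  choose T' hT' using hT
  have hTmap : (algebraMap A L).mapMatrix (Matrix.of T') = Algebra.traceMatrix L b := by
    ext i j
    simp only [RingHom.mapMatrix_apply, Matrix.map_apply, Matrix.of_apply, hT',
      Algebra.traceMatrix_apply, Algebra.traceForm_apply]
  have hdet : (Algebra.traceMatrix L b).det = algebraMap A L d₀ := by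
    rw [hd₀, Algebra.discr_def]
  choose β h hhO hβh using fun j => trace_intL hp hPID hG hε (hb.1 j)
  set g : Fin (Module.finrank L E) → L := fun i => b.repr ε i with hg
  have hc : ∀ j, Algebra.trace L E (ε * b j) = ∑ i, g i * Algebra.traceMatrix L b i j := by
    intro j
    conv_lhs => rw [← b.sum_repr ε]
    rw [Finset.sum_mul, map_sum]
    refine Finset.sum_congr rfl fun i _ => ?_
    rw [smul_mul_assoc, map_smul, smul_eq_mul, Algebra.traceMatrix_apply, Algebra.traceForm_apply]
  set adj : Matrix _ _ A := (Matrix.of T').adjugate with hadj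
  have hadjmap : (algebraMap A L).mapMatrix adj = (Algebra.traceMatrix L b).adjugate := by
    rw [hadj, RingHom.map_adjugate, hTmap]
  have hcramer : ∀ i, algebraMap A L d₀ * g i =
      ∑ j, Algebra.trace L E (ε * b j) * algebraMap A L (adj j i) := by
    intro i
    have e1 : Matrix.vecMul (Matrix.vecMul g (Algebra.traceMatrix L b))
        (Algebra.traceMatrix L b).adjugate = algebraMap A L d₀ • g := by
      rw [Matrix.vecMul_vecMul, Matrix.mul_adjugate, hdet, Matrix.vecMul_smul, Matrix.vecMul_one]
    have e2 := congrFun e1 i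
    rw [Pi.smul_apply, smul_eq_mul] at e2
    rw [← e2, Matrix.vecMul, dotProduct]
    refine Finset.sum_congr rfl fun j _ => ?_
    rw [hc j, ← hadjmap]
    rfl
  set a' : Fin (Module.finrank L E) → A := fun i => ∑ j, β j * adj j i with ha'
  set h' : Fin (Module.finrank L E) → L := fun i => ∑ j, h j * algebraMap A L (adj j i) with hh'
  have hh'O : ∀ i, algebraMap L Ω (h' i) ∈ O := by
    intro i
    rw [hh', map_sum]
    refine O.toSubring.sum_mem fun j _ => ?_
    rw [map_mul, ← IsScalarTower.algebraMap_apply]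
    exact O.mul_mem _ _ (hhO j) (hG _).1
  have hsplit : ∀ i, algebraMap A L d₀ * g i = algebraMap A L (a' i) + algebraMap A L p * h' i := by
    intro i
    rw [hcramer i, ha', hh', map_sum, Finset.mul_sum, ← Finset.sum_add_distrib]
    refine Finset.sum_congr rfl fun j _ => ?_
    rw [hβh j, map_mul]
    ring
  -- (3)
  set y₀ : E := ∑ i, a' i • b i with hy₀
  set η₀ : E := ∑ i, h' i • b i with hη₀
  have hy₀int : IsIntegral A y₀ := IsIntegral.sum _ fun i _ => (hb.1 i).smul (a' i)
  have hη₀int : IntO L O η₀ := intO_sum_smul h' hh'O b fun i => intO_of_isIntegral hG (hb.1 i)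
  have h3 : d₀ • ε = y₀ + p • η₀ := by
    conv_lhs => rw [← b.sum_repr ε]
    rw [hy₀, hη₀, Finset.smul_sum, Finset.smul_sum, ← Finset.sum_add_distrib]
    refine Finset.sum_congr rfl fun i _ => ?_
    rw [← algebraMap_smul L d₀, smul_smul, hsplit i, add_smul, mul_smul, algebraMap_smul,
      algebraMap_smul]
  -- (4)
  refine ⟨k, a • y₀, -(a • η₀ + q • ε), hy₀int.smul a, locInt_of_intO hp hG
    (intO_neg (intO_add (intO_smulA hG a hη₀int) (intO_smulA hG q hε.1))), ?_⟩
  have h4 : W ^ k = a * d₀ + p * q := by rw [← hq]; ring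
  rw [h4, add_smul, mul_smul, h3, mul_smul, smul_add, smul_neg, smul_add, smul_comm a p η₀]
  abel

end Fermat.Agent.S18.AU
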