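import Fermat.Agent.S18.AT.AU.Defs
import Fermat.Agent.S18.AT.Val

set_option autoImplicit false
set_option linter.unusedSectionVars false

/-!
# S18 / AT / AU / Frac : the valuation ring induced on `L = Frac A`   (task AU-Frac)

SKETCH.  `A` is a UFD: every `g : L` is `α / s` with `α, s` relatively prime
(`IsFractionRing.exists_reduced_fraction`, or `IsLocalization.surj` + divide out powers of `p`: only "not
both divisible by `p`" is needed).
`exists_frac_of_mem`: if `p ∣ s` then `¬ p ∣ α`, so `ι α ∈ O \ nonunits`, `ι s ∈ nonunits`, but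
`ι α = ι g * ι s ∈ nonunits` (`mul_mem_nonunits`), contradiction.
`exists_eq_mul_of_mem_nonunits`: `g = α / s`, `¬ p ∣ s`; `ι α = ι g * ι s ∈ nonunits` so `p ∣ α`, `α = p α'`,
`g' := α' / s`; `ι g' ∈ O` by `mem_of_frac`.
`mem_of_frac`: `ι s ∈ O`, not a nonunit, so `(ι s)⁻¹ ∈ O` (`inv_mem_of_notMem_nonunits`).
Here `ι = algebraMap L Ω`, and `algebraMap A Ω = ι ∘ algebraMap A L` (`IsScalarTower.algebraMap_apply`).
-/

noncomputable section

namespace Fermat.Agent.S18.AU

variable {A L Ω : Type} [CommRing A] [IsDomain A] [UniqueFactorizationMonoid A]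
  [Field L] [Algebra A L] [IsFractionRing A L]
  [Field Ω] [Algebra L Ω] [Algebra A Ω] [IsScalarTower A L Ω]
  {p : A} {O : ValuationSubring Ω}

theorem mem_of_frac (hG : GaussA p O) {g : L} {α s : A} (hs : ¬ p ∣ s)
    (h : g * algebraMap A L s = algebraMap A L α) : algebraMap L Ω g ∈ O := by
  have h1 := congrArg (algebraMap L Ω) h
  rw [map_mul, ← IsScalarTower.algebraMap_apply, ← IsScalarTower.algebraMap_apply] at h1
  have hsO := (hG s).1
  have hsn : algebraMap A Ω s ∉ O.nonunits := fun hh => hs ((hG s).2.1 hh)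
  have hinv := inv_mem_of_notMem_nonunits O hsO hsn
  have hs0 : algebraMap A Ω s ≠ 0 := fun h0 => hsn (h0 ▸ zero_mem_nonunits O)
  have h2 : algebraMap L Ω g = algebraMap A Ω α * (algebraMap A Ω s)⁻¹ := by
    rw [← h1, mul_assoc, mul_inv_cancel₀ hs0, mul_one]
  rw [h2]
  exact O.mul_mem _ _ (hG α).1 hinv

theorem exists_frac_of_mem (hp : Prime p) (hG : GaussA p O) (g : L) (hg : algebraMap L Ω g ∈ O) :
    ∃ α s : A, ¬ p ∣ s ∧ g * algebraMap A L s = algebraMap A L α := by
  obtain ⟨a, b, hab, hgab⟩ := IsFractionRing.exists_reduced_fraction (A := A) (K := L) g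
  have h : g * algebraMap A L b = algebraMap A L a := by
    rw [← hgab]; exact IsLocalization.mk'_spec L a b
  refine ⟨a, b, ?_, h⟩
  intro hpb
  have h1 := congrArg (algebraMap L Ω) h
  rw [map_mul, ← IsScalarTower.algebraMap_apply, ← IsScalarTower.algebraMap_apply] at h1
  have h2 : algebraMap A Ω a ∈ O.nonunits := by
    rw [← h1]
    exact mul_mem_nonunits O hg ((hG b).2.2 hpb)
  exact hp.not_isUnit (hab ((hG a).2.1 h2) hpb)

theorem exists_eq_mul_of_mem_nonunits (hp : Prime p) (hG : GaussA p O) (g : L)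
    (hg : algebraMap L Ω g ∈ O.nonunits) :
    ∃ g' : L, algebraMap L Ω g' ∈ O ∧ g = algebraMap A L p * g' := by
  obtain ⟨α, s, hs, h⟩ := exists_frac_of_mem hp hG g (mem_of_mem_nonunits O hg)
  have h1 := congrArg (algebraMap L Ω) h
  rw [map_mul, ← IsScalarTower.algebraMap_apply, ← IsScalarTower.algebraMap_apply] at h1
  have h2 : algebraMap A Ω α ∈ O.nonunits := by
    rw [← h1]
    exact mul_mem_nonunits' O hg (hG s).1
  obtain ⟨α', rfl⟩ := (hG α).2.1 h2
  have hs0 : algebraMap A L s ≠ 0 := by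
    intro h0
    have : s = 0 := (IsFractionRing.injective A L) (by rw [h0, map_zero])
    exact hs (this ▸ dvd_zero p)
  refine ⟨algebraMap A L α' / algebraMap A L s, ?_, ?_⟩
  · exact mem_of_frac hG hs (div_mul_cancel₀ _ hs0)
  · rw [map_mul] at h
    rw [mul_div_assoc', ← h, mul_div_cancel_right₀ _ hs0]

end Fermat.Agent.S18.AU
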