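import Fermat.Agent.S18.AT.AU.Frac

set_option autoImplicit false
set_option linter.unusedSectionVars false

/-!
# S18 / AT / AU / Integral : `IntO ↔ LocInt`   (task AU-Integral)

SKETCH of `exists_smul_isIntegral`.  `f := minpoly L y`.  `f.map (algebraMap L Λ)` splits, its roots are the
`ψ y` (`Algebra.IsAlgebraic.range_eval_eq_rootSet_minpoly`, or: a root `ρ` gives `L⟮y⟯ → Λ`, extend to `E`
by `IsAlgClosed.lift`), so `f.map ι = ∏ (X - C ρ)` over the multiset of roots, all `ρ ∈ V`; hence all
coefficients `ι (f.coeff j) ∈ V` (e.g. `Polynomial.lifts V.subtype` is a subsemiring containing each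
`X - C ρ`).  By `hV`, `f.coeff j * β_j = α_j`, `¬ m ∣ β_j`.  `β := ∏_{j < d} β_j` (`¬ m ∣ β`, `m` prime) satisfies
`β • f.coeff j ∈ A` for all `j`; then `β • y` is a root of the monic polynomial
`X^d + ∑_{j<d} (β^(d-j) f_j) X^j` with coefficients in `A` (compare `Polynomial.scaleRoots`, or
`IsIntegral` via `RingHom.isIntegralElem_leadingCoeff_mul` applied to the polynomial `β • f ∈ A[X]` of
leading coefficient `β`: that lemma gives exactly `IsIntegral A (β * y)`).
`locInt_of_intO`: `Λ := Ω`, `V := O.toSubring`, `hV := exists_frac_of_mem`.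
`intO_of_locInt`: `φ (s • y) = ι s * φ y` is integral over `A`, hence in `O` (`mem_of_isIntegralElem`), and `ι s` is a
unit of `O`.
-/

noncomputable section

namespace Fermat.Agent.S18.AU

open Polynomial

variable {A L E Ω : Type} [CommRing A] [IsDomain A] [UniqueFactorizationMonoid A]
  [Field L] [Algebra A L] [IsFractionRing A L]
  [Field E] [Algebra L E] [FiniteDimensional L E] [Algebra A E] [IsScalarTower A L E]
  [Field Ω] [IsAlgClosed Ω] [Algebra L Ω] [Algebra A Ω] [IsScalarTower A L Ω]
  {p : A} {O : ValuationSubring Ω}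

theorem exists_smul_isIntegral {Λ : Type} [Field Λ] [IsAlgClosed Λ] [Algebra L Λ] (V : Subring Λ)
    {m : A} (hm : Prime m)
    (hV : ∀ g : L, algebraMap L Λ g ∈ V →
      ∃ α β : A, ¬ m ∣ β ∧ g * algebraMap A L β = algebraMap A L α)
    (y : E) (hy : ∀ ψ : E →ₐ[L] Λ, ψ y ∈ V) : ∃ β : A, ¬ m ∣ β ∧ IsIntegral A (β • y) := by
  set f := minpoly L y with hf
  have hyint : IsIntegral L y := Algebra.IsIntegral.isIntegral y
  have hfm : f.Monic := minpoly.monic hyint
  have hsplit : (f.map (algebraMap L Λ)).Splits := IsAlgClosed.splits _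
  have hlift : f.map (algebraMap L Λ) ∈ lifts V.subtype := by
    refine hsplit.mem_lift_of_roots_mem_range (hfm.map _) V.subtype ?_
    intro a ha
    have ha' : a ∈ f.rootSet Λ := by
      rw [mem_rootSet_of_ne hfm.ne_zero]
      have := (mem_roots'.1 ha).2
      rwa [IsRoot.def, eval_map_algebraMap] at this
    rw [hf, ← Algebra.IsAlgebraic.range_eval_eq_rootSet_minpoly Λ y] at ha'
    obtain ⟨ψ, rfl⟩ := ha'
    exact ⟨⟨ψ y, hy ψ⟩, rfl⟩
  have hcoeff : ∀ j, algebraMap L Λ (f.coeff j) ∈ V := by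
    intro j
    obtain ⟨v, hv⟩ := (lifts_iff_coeff_lifts _).1 hlift j
    rw [coeff_map] at hv
    rw [← hv]; exact v.2
  choose α β hβ hαβ using fun j => hV (f.coeff j) (hcoeff j)
  set d := f.natDegree with hd
  set B : A := ∏ j ∈ Finset.range (d + 1), β j with hB
  have hmB : ¬ m ∣ B := by
    intro h
    obtain ⟨j, -, hj⟩ := (hm.dvd_finsetProd_iff _).1 h
    exact hβ j hj
  have hlift2 : C (algebraMap A L B) * f ∈ lifts (algebraMap A L) := by
    rw [lifts_iff_coeff_lifts]
    intro j
    rw [coeff_C_mul]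
    by_cases hj : j ∈ Finset.range (d + 1)
    · obtain ⟨c, hc⟩ := Finset.dvd_prod_of_mem β hj
      refine ⟨c * α j, ?_⟩
      rw [map_mul, ← hαβ j, hB, hc, map_mul]; ring
    · have : f.coeff j = 0 := by
        apply coeff_eq_zero_of_natDegree_lt
        rw [Finset.mem_range, not_lt] at hj
        omega
      exact ⟨0, by rw [this, mul_zero, map_zero]⟩
  obtain ⟨q, hq⟩ := (mem_lifts _).1 hlift2
  have hinj : Function.Injective (algebraMap A L) := IsFractionRing.injective A L
  have hlc : q.leadingCoeff = B := by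
    apply hinj
    rw [← leadingCoeff_map_of_injective hinj, hq, leadingCoeff_mul, leadingCoeff_C,
      hfm.leadingCoeff, mul_one]
  have hev : aeval y q = 0 := by
    rw [← aeval_map_algebraMap L, hq, map_mul, hf, minpoly.aeval, mul_zero]
  refine ⟨B, hmB, ?_⟩
  rw [← hlc]
  exact isIntegral_leadingCoeff_smul q y hev

theorem locInt_of_intO (hp : Prime p) (hG : GaussA p O) {y : E} (hy : IntO L O y) : LocInt p y :=
  exists_smul_isIntegral (Λ := Ω) O.toSubring hp
    (fun g hg => exists_frac_of_mem hp hG g hg) y hy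

theorem intO_of_isIntegral (hG : GaussA p O) {y : E} (hy : IsIntegral A y) : IntO L O y := by
  intro φ
  have h1 : IsIntegral A (φ y) := by
    have := hy.map (φ.restrictScalars A)
    exact this
  exact mem_of_isIntegralElem O (algebraMap A Ω) (fun a => (hG a).1) h1

theorem intO_of_locInt (hG : GaussA p O) {y : E} (hy : LocInt p y) : IntO L O y := by
  obtain ⟨s, hs, hsy⟩ := hy
  intro φ
  have h1 := intO_of_isIntegral (L := L) hG hsy φ
  have h2 : φ (s • y) = algebraMap A Ω s * φ y := by
    rw [Algebra.smul_def, map_mul, IsScalarTower.algebraMap_apply A L E, AlgHom.commutes,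
      ← IsScalarTower.algebraMap_apply]
  rw [h2] at h1
  have hsn : algebraMap A Ω s ∉ O.nonunits := fun hh => hs ((hG s).2.1 hh)
  have hinv := inv_mem_of_notMem_nonunits O (hG s).1 hsn
  have hs0 : algebraMap A Ω s ≠ 0 := fun h0 => hsn (h0 ▸ zero_mem_nonunits O)
  have h3 : φ y = (algebraMap A Ω s)⁻¹ * (algebraMap A Ω s * φ y) := by
    rw [← mul_assoc, inv_mul_cancel₀ hs0, one_mul]
  rw [h3]
  exact O.mul_mem _ _ hinv h1

end Fermat.Agent.S18.AU
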