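import Mathlib

set_option autoImplicit false

/-!
# S18 / AT / AU / Points : linearly independent functions are separated by points   (task AU-Points)

SKETCH.  The vectors `v y := (fun a => f a y) : ι → k`, `y : S`, span `ι → k`: otherwise there is a nonzero linear
functional `c` vanishing on all of them (`Submodule.exists_le_ker_of_lt_top` / dual basis), i.e.
`∑ a, c a • f a = 0`, contradicting `hf` (`Fintype.linearIndependent_iff`).  Extract a basis from the spanning
family (`Module.Basis.ofSpan`-type statements, `exists_linearIndependent`, or
`Submodule.exists_fun_fin_finrank_span_eq`), index it by `ι` (cardinality `= finrank = card ι`); a matrix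
whose columns form a basis has nonzero determinant (`Module.Basis.det` / `Matrix.linearIndependent_cols_iff_isUnit`
/ `Matrix.det_ne_zero_of_...`).
-/

namespace Fermat.Agent.S18.AU

theorem exists_points {k S ι : Type*} [Field k] [Fintype ι] [DecidableEq ι] (f : ι → S → k)
    (hf : LinearIndependent k f) : ∃ y : ι → S, (Matrix.of fun a i => f a (y i)).det ≠ 0 := by
  classical
  -- the vectors `v y`
  let v : S → (ι → k) := fun y a => f a y
  have hspan : Submodule.span k (Set.range v) = ⊤ := by
    by_contra hne
    obtain ⟨φ, hφ0, hφ⟩ := Submodule.exists_le_ker_of_lt_top _ (lt_top_iff_ne_top.2 hne)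
    -- `φ` is given by coefficients `c a = φ (Pi.single a 1)`
    have hφv : ∀ w : ι → k, φ w = ∑ a, w a * φ (Pi.single a 1) := by
      intro w
      have h := LinearMap.pi_apply_eq_sum_univ φ w
      rw [h]
      refine Finset.sum_congr rfl fun a _ => ?_
      rw [smul_eq_mul]
      congr 2
      funext j
      simp [Pi.single_apply, eq_comm]
    have hzero : ∑ a, φ (Pi.single a 1) • f a = 0 := by
      funext y
      have h1 : φ (v y) = 0 := hφ (Submodule.subset_span ⟨y, rfl⟩)
      rw [hφv] at h1
      simp only [Finset.sum_apply, Pi.smul_apply, smul_eq_mul, Pi.zero_apply]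
      rw [← h1]
      exact Finset.sum_congr rfl fun a _ => mul_comm _ _
    have hc := Fintype.linearIndependent_iff.1 hf _ hzero
    apply hφ0
    apply LinearMap.ext
    intro w
    rw [hφv]
    simp [hc]
  -- extract a basis
  obtain ⟨b, hbsub, hbspan, hbli⟩ := exists_linearIndependent k (Set.range v)
  have hbtop : Submodule.span k b = ⊤ := by rw [hbspan, hspan]
  let B : Module.Basis b k (ι → k) := Module.Basis.mk hbli (by
    rw [Subtype.range_coe_subtype]
    exact hbtop.ge)
  have : Fintype b := FiniteDimensional.fintypeBasisIndex B
  have hcard : Fintype.card b = Fintype.card ι := by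
    rw [← Module.finrank_eq_card_basis B, Module.finrank_fintype_fun_eq_card]
  let e : ι ≃ b := (Fintype.equivOfCardEq hcard).symm
  have hex : ∀ i : ι, ∃ y : S, v y = (e i : ι → k) := fun i => hbsub (e i).2
  choose y hy using hex
  refine ⟨y, ?_⟩
  let B' : Module.Basis ι k (ι → k) := B.reindex e.symm
  have hB' : ∀ i, B' i = v (y i) := by
    intro i
    rw [hy]
    simp [B', B]
  have hM : (Matrix.of fun a i => f a (y i)) = (Pi.basisFun k ι).toMatrix B' := by
    ext a i
    rw [Module.Basis.toMatrix_apply, hB']
    simp [v]
  rw [hM]
  have hu : IsUnit ((Pi.basisFun k ι).toMatrix B').det := by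
    have := Module.Basis.invertibleToMatrix (Pi.basisFun k ι) B'
    exact (Matrix.isUnit_iff_isUnit_det _).1 (isUnit_of_invertible _)
  exact hu.ne_zero

end Fermat.Agent.S18.AU
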