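import Fermat.Agent.S18.AT.AU.Integral
import Fermat.Agent.S18.AT.AU.Points

set_option autoImplicit false
set_option linter.unusedSectionVars false

/-!
# S18 / AT / AU / Unimod : a unimodular family from distinct reductions   (task AU-Unimod)

SKETCH.  `𝒪 := {y : E | IntO L O y}` is a subring of `E` (or just a submonoid for `*`).  `k_O := IsLocalRing.ResidueField O`.
For `φ : E →ₐ[L] Ω` let `φ̄ : 𝒪 →* k_O`, `y ↦ residue ⟨φ y, _⟩`.  `DRed` says `φ ↦ φ̄` is injective
(`residue a = residue b ↔ a - b ∈ maximalIdeal ↔ (a - b : Ω) ∈ O.nonunits`, see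
`ValuationSubring.mem_nonunits_iff_exists_mem_maximalIdeal`).  Dedekind (`linearIndependent_monoidHom`) composed with
this injection: the functions `φ̄ : 𝒪 → k_O` are linearly independent.  `exists_points` gives `y i ∈ 𝒪` with
`det (φ̄ a (y i)) ≠ 0`; this determinant is the residue of `det (a (y i))` computed in `O`
(`RingHom.map_det`), so the latter is not in the maximal ideal.
-/

noncomputable section

namespace Fermat.Agent.S18.AU

variable {L E Ω : Type} [Field L] [Field E] [Algebra L E] [FiniteDimensional L E]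
  [Field Ω] [Algebra L Ω] {O : ValuationSubring Ω}

namespace Unimod

/-- the multiplicative monoid of elements all of whose conjugates are integral. -/
def intMonoid (L E : Type) {Ω : Type} [Field L] [Field E] [Algebra L E] [Field Ω] [Algebra L Ω]
    (O : ValuationSubring Ω) : Submonoid E where
  carrier := {y | IntO L O y}
  one_mem' := fun φ => by rw [map_one]; exact O.one_mem
  mul_mem' := fun {a b} ha hb φ => by rw [map_mul]; exact O.mul_mem _ _ (ha φ) (hb φ)

/-- the reduction of an embedding. -/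
def redHom (φ : E →ₐ[L] Ω) : intMonoid L E O →* IsLocalRing.ResidueField O where
  toFun y := IsLocalRing.residue O ⟨φ y.1, y.2 φ⟩
  map_one' := by
    have : (⟨φ (1 : intMonoid L E O).1, (1 : intMonoid L E O).2 φ⟩ : O) = 1 :=
      Subtype.ext (map_one φ)
    rw [this, map_one]
  map_mul' a b := by
    have : (⟨φ (a * b).1, (a * b).2 φ⟩ : O) = ⟨φ a.1, a.2 φ⟩ * ⟨φ b.1, b.2 φ⟩ :=
      Subtype.ext (map_mul φ a.1 b.1)
    rw [this, map_mul]

theorem redHom_injective (hD : DRed L E O) :
    Function.Injective (redHom (L := L) (E := E) (O := O)) := by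
  intro φ φ' h
  by_contra hne
  obtain ⟨y, hy, hy'⟩ := hD φ φ' hne
  apply hy'
  have h1 := congrArg (fun f => f ⟨y, hy⟩) h
  have h2 : IsLocalRing.residue O ⟨φ y, hy φ⟩ = IsLocalRing.residue O ⟨φ' y, hy φ'⟩ := h1
  rw [← sub_eq_zero, ← map_sub, IsLocalRing.residue_eq_zero_iff] at h2
  exact (ValuationSubring.coe_mem_nonunits_iff).2 h2

end Unimod

open Unimod in
theorem exists_unimodular [DecidableEq (E →ₐ[L] Ω)] (hD : DRed L E O) :
    ∃ y : (E →ₐ[L] Ω) → E, (∀ i, IntO L O (y i)) ∧
      (Matrix.of fun (a i : E →ₐ[L] Ω) => a (y i)).det ∉ O.nonunits := by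
  have hli : LinearIndependent (IsLocalRing.ResidueField O)
      (fun (φ : E →ₐ[L] Ω) => (redHom (O := O) φ : intMonoid L E O → IsLocalRing.ResidueField O)) :=
    (linearIndependent_monoidHom (intMonoid L E O) (IsLocalRing.ResidueField O)).comp _
      (redHom_injective hD)
  obtain ⟨y, hy⟩ := exists_points _ hli
  refine ⟨fun i => (y i).1, fun i => (y i).2, fun hmem => hy ?_⟩
  set MO : Matrix (E →ₐ[L] Ω) (E →ₐ[L] Ω) O := Matrix.of fun a i => ⟨a (y i).1, (y i).2 a⟩ with hMO
  have h1 : (Matrix.of fun (a i : E →ₐ[L] Ω) => a (y i).1) = MO.map O.subtype := by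
    ext a i; rfl
  have h2 : (Matrix.of fun (a i : E →ₐ[L] Ω) => redHom (O := O) a (y i))
      = MO.map (IsLocalRing.residue O) := by
    ext a i; rfl
  rw [h1, ← RingHom.mapMatrix_apply, ← RingHom.map_det] at hmem
  rw [h2, ← RingHom.mapMatrix_apply, ← RingHom.map_det, IsLocalRing.residue_eq_zero_iff]
  exact (ValuationSubring.coe_mem_nonunits_iff).1 hmem

end Fermat.Agent.S18.AU
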